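import Fermat.Agent.DS.Cheb.LSeries
import Mathlib.NumberTheory.DirichletCharacter.Orthogonality

/-!
# Equidistribution of degree one primes in classes modulo a prime

If the norms of the primes of degree one of `K` lie in the group generated by `τ` modulo `q`,
generate it, and are congruent to `1` with density `1 / ord τ`, they are congruent to `τ` with the
same density.
-/

set_option autoImplicit false

noncomputable section

open Filter Topology NumberField Ideal Asymptotics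
open Fermat.CFT (idealCount primeSum IsLogAsymp)
open scoped Real

namespace Fermat.DS.Cheb

variable (K : Type*) [Field K] [NumberField K]

/-- A continuous function whose exponential is near a nonzero number is bounded when its real part
is. -/
lemma eventually_bounded_of_exp {Λ L : ℝ → ℂ} (hΛ : ContinuousOn Λ (Set.Ioi 1))
    (hexp : ∀ᶠ s in 𝓝[>] (1 : ℝ), Complex.exp (Λ s) = L s) {ℓ : ℂ}
    (hL : Tendsto L (𝓝[>] 1) (𝓝 ℓ)) (hre : ∃ B, ∀ᶠ s in 𝓝[>] (1 : ℝ), B ≤ (Λ s).re) :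
    ∃ B, ∀ᶠ s in 𝓝[>] (1 : ℝ), ‖Λ s‖ ≤ B := by
  obtain ⟨B, hB⟩ := hre
  -- the limit is not zero
  have hℓ : ℓ ≠ 0 := by
    intro h0
    have h1 : Real.exp B ≤ ‖ℓ‖ := le_of_tendsto_of_tendsto tendsto_const_nhds hL.norm (by
      filter_upwards [hB, hexp] with s h1 h2
      rw [← h2, Complex.norm_exp]
      exact Real.exp_le_exp.mpr h1)
    rw [h0, norm_zero] at h1
    exact (Real.exp_pos B).not_ge h1
  have hnear : ∀ᶠ s in 𝓝[>] (1 : ℝ), Complex.exp (Λ s) = L s ∧ L s / ℓ ∈ Complex.slitPlane := by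
    refine hexp.and ?_
    have h1 : Tendsto (fun s => L s / ℓ) (𝓝[>] 1) (𝓝 1) := by
      simpa [div_self hℓ] using hL.div_const ℓ
    exact h1.eventually (Complex.isOpen_slitPlane.mem_nhds Complex.one_mem_slitPlane)
  obtain ⟨u, hu, hsub⟩ := mem_nhdsGT_iff_exists_Ioo_subset.mp hnear
  -- `h = Λ - log (L / ℓ)` differs from its value at one point by a multiple of `2πi`
  set h : ℝ → ℂ := fun s => Λ s - Complex.log (L s / ℓ) with hh
  have hcont : ContinuousOn h (Set.Ioo 1 u) := by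
    have hsub' : Set.Ioo (1 : ℝ) u ⊆ Set.Ioi 1 := fun s hs => hs.1
    refine (hΛ.mono hsub').sub (ContinuousOn.clog ?_ fun s hs => (hsub hs).2)
    exact (((hΛ.mono hsub').cexp).congr fun s hs => (hsub hs).1.symm).div_const ℓ
  obtain ⟨s₁, hs₁⟩ : (Set.Ioo (1 : ℝ) u).Nonempty := Set.nonempty_Ioo.mpr hu
  have hval : ∀ s ∈ Set.Ioo (1 : ℝ) u, ∃ n : ℤ, h s = h s₁ + n * (2 * π * Complex.I) := by
    have hexpℓ : ∀ s ∈ Set.Ioo (1 : ℝ) u, Complex.exp (h s) = ℓ := fun s hs => by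
      have hne : L s / ℓ ≠ 0 := Complex.slitPlane_ne_zero (hsub hs).2
      rw [hh, Complex.exp_sub, Complex.exp_log hne, (hsub hs).1]
      field_simp [(div_ne_zero_iff.mp hne).1]
    exact fun s hs => Complex.exp_eq_exp_iff_exists_int.mp
      ((hexpℓ s hs).trans (hexpℓ s₁ hs₁).symm)
  set f : ℝ → ℝ := fun s => ((h s).im - (h s₁).im) / (2 * π)
  have hfn : ∀ (s : ℝ) (n : ℤ), h s = h s₁ + n * (2 * π * Complex.I) → f s = n := fun s n hn => by
    simp only [f, hn, Complex.add_im, Complex.mul_im, Complex.mul_re, Complex.intCast_re,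
      Complex.intCast_im, Complex.re_ofNat, Complex.im_ofNat, Complex.ofReal_re, Complex.ofReal_im,
      Complex.I_re, Complex.I_im]
    field_simp
    ring
  have hf : ∀ s ∈ Set.Ioo (1 : ℝ) u, ∃ n : ℤ, f s = n := fun s hs =>
    let ⟨n, hn⟩ := hval s hs
    ⟨n, hfn s n hn⟩
  have hconn : IsPreconnected (f '' Set.Ioo 1 u) := isPreconnected_Ioo.image f <| by
    exact ((Complex.continuous_im.comp_continuousOn hcont).sub continuousOn_const).div_const _
  -- by connectedness the multiple is zero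
  have hzero : ∀ s ∈ Set.Ioo (1 : ℝ) u, f s = 0 := fun s hs => by
    have h0 : (0 : ℝ) ∈ f '' Set.Ioo 1 u := ⟨s₁, hs₁, by simp [f]⟩
    obtain ⟨n, hn⟩ := hf s hs
    have habs : ∀ t ∈ f '' Set.Ioo 1 u, 2 * t ≠ 1 ∧ 2 * t ≠ -1 := by
      rintro t ⟨r, hr, rfl⟩
      obtain ⟨k, hk⟩ := hf r hr
      rw [hk]
      constructor <;> intro h' <;> norm_cast at h' <;> omega
    rcases lt_trichotomy n 0 with hlt | rfl | hgt
    · have : (n : ℝ) ≤ -1 := by exact_mod_cast (show n ≤ -1 by omega)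
      refine absurd ?_ ((habs (-1 / 2))
        (hconn.Icc_subset ⟨s, hs, hn⟩ h0 ⟨by linarith, by norm_num⟩)).2
      norm_num
    · simpa using hn
    · have : (1 : ℝ) ≤ n := by exact_mod_cast (show 1 ≤ n by omega)
      refine absurd ?_ ((habs (1 / 2))
        (hconn.Icc_subset h0 ⟨s, hs, hn⟩ ⟨by norm_num, by linarith⟩)).1
      norm_num
  -- so `Λ` is bounded near `1`
  have hlog : Tendsto (fun s => Complex.log (L s / ℓ)) (𝓝[>] 1) (𝓝 0) := by
    have h1 : Tendsto (fun s => L s / ℓ) (𝓝[>] 1) (𝓝 1) := by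
      simpa [div_self hℓ] using hL.div_const ℓ
    simpa using h1.clog Complex.one_mem_slitPlane
  refine ⟨‖h s₁‖ + 1, ?_⟩
  filter_upwards [Ioo_mem_nhdsGT hu, hlog.norm.eventually (eventually_le_nhds
    (by rw [norm_zero]; norm_num : ‖(0 : ℂ)‖ < 1))] with s hs hs'
  obtain ⟨n, hn⟩ := hval s hs
  have h0 := hzero s hs
  have hn0 : n = 0 := by exact_mod_cast (hfn s n hn).symm.trans h0
  rw [hn0, Int.cast_zero, zero_mul, add_zero, hh] at hn
  rw [show Λ s = h s₁ + Complex.log (L s / ℓ) by rw [hh, ← hn]; ring]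
  exact (norm_add_le _ _).trans (add_le_add_right hs' _)

variable {q : ℕ} [Fact q.Prime]

/-- `a` restricted to the primes outside `m` congruent to `c`. -/
def classWeight (m : ℕ) (c : ZMod q) (p : Nat.Primes) : ℝ :=
  if ¬ (p : ℕ) ∣ m ∧ ((p : ℕ) : ZMod q) = c then (idealCount K p : ℝ) else 0

/-- The number of ideals of norm `p`, kept or set to zero, is at most the degree. -/
lemma abs_weight_le (P : Prop) [Decidable P] (p : Nat.Primes) :
    |if P then (idealCount K p : ℝ) else 0| ≤ Module.finrank ℚ K := by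
  split_ifs
  · rw [Nat.abs_cast]; exact_mod_cast Fermat.CFT.idealCount_prime_le K p.2
  · simp

/-- `a` restricted to the primes outside `m`. -/
def awayWeight (m : ℕ) (p : Nat.Primes) : ℝ :=
  if ¬ (p : ℕ) ∣ m then (idealCount K p : ℝ) else 0

section Level

variable {m : ℕ}

/-- Two weights equal outside the divisors of `m` differ at finitely many primes. -/
lemma finite_ne_of_eq_away (hm0 : m ≠ 0) {g g' : Nat.Primes → ℝ}
    (h : ∀ p : Nat.Primes, ¬ (p : ℕ) ∣ m → g p = g' p) : {p | g p ≠ g' p}.Finite := by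
  refine ((m.divisors).finite_toSet.preimage Nat.Primes.coe_nat_injective.injOn).subset
    fun p hp => ?_
  exact Finset.mem_coe.mpr (Nat.mem_divisors.mpr ⟨by_contra fun hd => hp (h p hd), hm0⟩)

variable [NeZero m]

omit [NeZero m] in
/-- A character raised to the level `m` at a prime. -/
lemma changeLevel_apply_prime {q : ℕ} (hqm : q ∣ m) (ψ : DirichletCharacter ℂ q) (p : Nat.Primes) :
    DirichletCharacter.changeLevel hqm ψ ((p : ℕ) : ZMod m) =
      if (p : ℕ) ∣ m then 0 else ψ ((p : ℕ) : ZMod q) := by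
  split_ifs with h
  · exact MulChar.map_nonunit _ fun hu =>
      p.2.not_dvd_one (by rw [← (ZMod.isUnit_iff_coprime _ _).mp hu]; exact Nat.dvd_gcd dvd_rfl h)
  · have hu : IsUnit ((p : ℕ) : ZMod m) :=
      (ZMod.isUnit_iff_coprime _ _).mpr ((p.2.coprime_iff_not_dvd).mpr h)
    have h2 := DirichletCharacter.changeLevel_eq_cast_of_dvd ψ hqm hu.unit
    rw [IsUnit.unit_spec] at h2
    exact h2.trans (by rw [ZMod.cast_natCast hqm])

omit [NeZero m] in
/-- The terms of the sum over the primes of a character raised to the level `m`. -/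
lemma mul_nterm_changeLevel {q : ℕ} (hqm : q ∣ m) (ψ : DirichletCharacter ℂ q) (s : ℝ)
    (p : Nat.Primes) : (idealCount K p : ℂ) * nterm (DirichletCharacter.changeLevel hqm ψ) s p =
      (if (p : ℕ) ∣ m then 0 else ψ ((p : ℕ) : ZMod q)) *
        (((idealCount K p : ℝ) * ((p : ℕ) : ℝ) ^ (-s) : ℝ) : ℂ) := by
  rw [nterm, changeLevel_apply_prime]; push_cast; ring

omit [NeZero m] in
/-- A character trivial at `τ` has the sum of the trivial one, the norms lying in `⟨τ⟩`. -/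
lemma pser_changeLevel_of_apply_eq_one {q : ℕ} (hqm : q ∣ m) {τ : (ZMod q)ˣ}
    (hsub : ∀ p : ℕ, p.Prime → ¬ p ∣ m → idealCount K p ≠ 0 →
      ∃ k : ℕ, (p : ZMod q) = ((τ ^ k : (ZMod q)ˣ) : ZMod q))
    (ψ : DirichletCharacter ℂ q) (hψ : ψ (τ : ZMod q) = 1) (s : ℝ) :
    pser K (DirichletCharacter.changeLevel hqm ψ) s = ((primeSum (awayWeight K m) s : ℝ) : ℂ) := by
  rw [pser, primeSum, Complex.ofReal_tsum]
  refine tsum_congr fun p => ?_
  rw [mul_nterm_changeLevel]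
  by_cases hd : (p : ℕ) ∣ m
  · simp [awayWeight, hd]
  · simp only [awayWeight, hd, not_false_iff, if_true, if_false]
    rcases eq_or_ne (idealCount K p) 0 with h0 | h0
    · simp [h0]
    · obtain ⟨k, hk⟩ := hsub p p.2 hd h0
      rw [hk, Units.val_pow_eq_pow_val, map_pow, hψ, one_pow, one_mul]

/-- Orthogonality: the characters pick out a class. -/
lemma sum_mul_pser_changeLevel (hqm : q ∣ m) (c : (ZMod q)ˣ) {s : ℝ} (hs : 1 < s) :
    ∑ ψ : DirichletCharacter ℂ q, ψ ((c⁻¹ : (ZMod q)ˣ) : ZMod q) *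
        pser K (DirichletCharacter.changeLevel hqm ψ) s =
      (q.totient : ℂ) * ((primeSum (classWeight K m (c : ZMod q)) s : ℝ) : ℂ) := by
  have : NeZero q := ⟨(Fact.out : q.Prime).ne_zero⟩
  simp only [pser, primeSum, ← tsum_mul_left, Complex.ofReal_tsum]
  rw [← Summable.tsum_finsetSum fun ψ _ => (summable_idealCount_mul_nterm (K := K) _ hs).mul_left _]
  refine tsum_congr fun p => ?_
  simp only [mul_nterm_changeLevel, ← mul_assoc, ← Finset.sum_mul]
  by_cases hd : (p : ℕ) ∣ m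
  · simp only [classWeight, hd, not_true, false_and, if_false, if_true, mul_zero, zero_mul,
      Finset.sum_const_zero, Complex.ofReal_zero]
  · simp only [hd, if_false, classWeight, not_false_iff, true_and]
    rw [← ZMod.inv_coe_unit, DirichletCharacter.sum_char_inv_mul_char_eq ℂ c.isUnit]
    by_cases he : ((p : ℕ) : ZMod q) = (c : ZMod q)
    · simp [he]
    · simp [he, Ne.symm he]

/-- The nontrivial characters give the difference of the class and the trivial sums. -/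
lemma sum_nontrivial_mul_pser (hqm : q ∣ m) {τ : (ZMod q)ˣ}
    (hsub : ∀ p : ℕ, p.Prime → ¬ p ∣ m → idealCount K p ≠ 0 →
      ∃ k : ℕ, (p : ZMod q) = ((τ ^ k : (ZMod q)ˣ) : ZMod q))
    {c : (ZMod q)ˣ} (hc : c = 1 ∨ c = τ) {s : ℝ} (hs : 1 < s) :
    ∑ ψ : DirichletCharacter ℂ q with ¬ ψ (τ : ZMod q) = 1,
        ψ ((c⁻¹ : (ZMod q)ˣ) : ZMod q) * pser K (DirichletCharacter.changeLevel hqm ψ) s =
      (q.totient : ℂ) * ((primeSum (classWeight K m (c : ZMod q)) s : ℝ) : ℂ) -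
        ((Finset.univ.filter fun ψ : DirichletCharacter ℂ q => ψ (τ : ZMod q) = 1).card : ℂ) *
          ((primeSum (awayWeight K m) s : ℝ) : ℂ) := by
  rw [← sum_mul_pser_changeLevel K hqm c hs, ← Finset.sum_filter_add_sum_filter_not Finset.univ
    (fun ψ : DirichletCharacter ℂ q => ψ (τ : ZMod q) = 1)]
  rw [Finset.sum_congr (s₁ := Finset.univ.filter fun ψ : DirichletCharacter ℂ q =>
      ψ (τ : ZMod q) = 1) rfl (g := fun _ => ((primeSum (awayWeight K m) s : ℝ) : ℂ))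
        fun ψ hψ => ?_,
    Finset.sum_const, nsmul_eq_mul, add_sub_cancel_left]
  have hψ' := (Finset.mem_filter.mp hψ).2
  rw [pser_changeLevel_of_apply_eq_one K hqm hsub ψ hψ']
  rcases hc with rfl | hcτ
  · rw [inv_one, Units.val_one, map_one, one_mul]
  · rw [hcτ]
    have h1 : ψ ((τ⁻¹ : (ZMod q)ˣ) : ZMod q) * ψ (τ : ZMod q) = 1 := by
      rw [← map_mul, Units.inv_mul, map_one]
    rw [hψ', mul_one] at h1
    rw [h1, one_mul]

/-- If the character is nontrivial at a prime norm not dividing `m`, its series has a limit at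
`1⁺` and the sum over the primes is bounded above near `1`. -/
lemma exists_tendsto_re_pser_le (χ : DirichletCharacter ℂ m) {p : ℕ} (hp : p.Prime)
    (hpm : ¬ p ∣ m) (hp0 : idealCount K p ≠ 0) (hne : χ (p : ZMod m) ≠ 1) {Λ : ℝ → ℂ} {B : ℝ}
    (hB : ∀ s, 1 < s → ‖Λ s - pser K χ s‖ ≤ B)
    (hexp : ∀ᶠ s in 𝓝[>] (1 : ℝ), Complex.exp (Λ s) = lser K χ s) :
    ∃ ℓ : ℂ, Tendsto (lser K χ) (𝓝[>] 1) (𝓝 ℓ) ∧
      ∀ᶠ s in 𝓝[>] (1 : ℝ), (pser K χ s).re ≤ B + Real.log (‖ℓ‖ + 1) := by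
  obtain ⟨⟨P, hP⟩⟩ : Nonempty {I : Ideal (𝓞 K) // absNorm I = p} :=
    (Nat.card_ne_zero.mp hp0).1
  have hP0 : P ≠ ⊥ := fun h => hp.ne_zero (by rw [← hP, h, absNorm_bot])
  obtain ⟨ℓ, hℓ⟩ := exists_tendsto_lser K χ ⟨P, mem_nonZeroDivisors_of_ne_zero hP0⟩
    (by simpa [hP] using hp.coprime_iff_not_dvd.mpr hpm) (by simpa [hP] using hne)
  refine ⟨ℓ, hℓ, ?_⟩
  filter_upwards [self_mem_nhdsWithin, hexp,
    hℓ.norm.eventually (eventually_le_nhds (lt_add_one ‖ℓ‖))] with s hs hse hsl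
  have h1 := Complex.abs_re_le_norm (Λ s - pser K χ s)
  rw [Complex.sub_re, abs_le] at h1
  have h2 : (Λ s).re ≤ Real.log (‖ℓ‖ + 1) := by
    rw [← hse, Complex.norm_exp] at hsl
    exact (Real.le_log_iff_exp_le (by positivity)).mpr hsl
  linarith [hB s hs, h1.1]

omit [NeZero m] in
/-- The sum over the primes is bounded when bounded below. -/
lemma exists_eventually_norm_pser_le (χ : DirichletCharacter ℂ m) {Λ : ℝ → ℂ} {ℓ : ℂ} {B C : ℝ}
    (hΛ : ContinuousOn Λ (Set.Ioi 1)) (hB : ∀ s, 1 < s → ‖Λ s - pser K χ s‖ ≤ B)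
    (hexp : ∀ᶠ s in 𝓝[>] (1 : ℝ), Complex.exp (Λ s) = lser K χ s)
    (hℓ : Tendsto (lser K χ) (𝓝[>] 1) (𝓝 ℓ))
    (hlow : ∀ᶠ s in 𝓝[>] (1 : ℝ), C ≤ (pser K χ s).re) :
    ∃ A : ℝ, ∀ᶠ s in 𝓝[>] (1 : ℝ), ‖pser K χ s‖ ≤ A := by
  obtain ⟨A, hA⟩ := eventually_bounded_of_exp hΛ hexp hℓ ⟨C - B, by
    filter_upwards [self_mem_nhdsWithin, hlow] with s hs hl
    have h1 := Complex.abs_re_le_norm (Λ s - pser K χ s)
    rw [Complex.sub_re, abs_le] at h1
    linarith [hB s hs, h1.1]⟩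
  refine ⟨A + B, ?_⟩
  filter_upwards [self_mem_nhdsWithin, hA] with s hs h
  have h1 := norm_le_norm_add_norm_sub (Λ s) (pser K χ s)
  linarith [hB s hs]

end Level

/-- The characters trivial at `τ` are the characters of the quotient by `⟨τ⟩`. -/
lemma card_apply_eq_one (τ : (ZMod q)ˣ) :
    ((Finset.univ.filter fun ψ : DirichletCharacter ℂ q => ψ (τ : ZMod q) = 1).card : ℝ) =
      q.totient * (1 / orderOf τ : ℝ) := by
  have : NeZero q := ⟨(Fact.out : q.Prime).ne_zero⟩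
  set k := (Finset.univ.filter fun ψ : DirichletCharacter ℂ q => ψ (τ : ZMod q) = 1).card
  have hcount : (k : ℂ) * orderOf τ = q.totient := by
    have h1 : ∑ ψ : DirichletCharacter ℂ q, ∑ j ∈ Finset.range (orderOf τ),
        ψ ((τ ^ j : (ZMod q)ˣ) : ZMod q) = q.totient := by
      rw [Finset.sum_comm, Finset.sum_eq_single_of_mem 0 (Finset.mem_range.mpr (orderOf_pos τ))]
      · rw [pow_zero, Units.val_one, DirichletCharacter.sum_characters_eq ℂ, if_pos rfl]
      · intro j hj hj0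
        rw [DirichletCharacter.sum_characters_eq ℂ, if_neg]
        rw [Units.val_eq_one]
        exact fun h => hj0 (Nat.eq_zero_of_dvd_of_lt (orderOf_dvd_iff_pow_eq_one.mpr h)
          (Finset.mem_range.mp hj))
    rw [← h1, ← Finset.sum_filter_add_sum_filter_not Finset.univ
      (fun ψ : DirichletCharacter ℂ q => ψ (τ : ZMod q) = 1)]
    rw [Finset.sum_congr rfl (g := fun _ => (orderOf τ : ℂ)) fun ψ hψ => by
      simp [Units.val_pow_eq_pow_val, (Finset.mem_filter.mp hψ).2],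
      Finset.sum_eq_zero (s := Finset.univ.filter fun ψ : DirichletCharacter ℂ q =>
        ¬ ψ (τ : ZMod q) = 1) fun ψ hψ => ?_, add_zero, Finset.sum_const, nsmul_eq_mul]
    simp only [Units.val_pow_eq_pow_val, map_pow]
    rw [geom_sum_eq (Finset.mem_filter.mp hψ).2, ← map_pow, ← Units.val_pow_eq_pow_val,
      pow_orderOf_eq_one, Units.val_one, map_one, sub_self, zero_div]
  have h : (k : ℝ) * orderOf τ = q.totient := by exact_mod_cast hcount
  rw [← h]
  field_simp [Nat.cast_ne_zero.mpr (orderOf_pos τ).ne']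

/-- A bound for the difference from `c` times the logarithm. -/
lemma exists_bound_of_isLogAsymp {g : Nat.Primes → ℝ} {c : ℝ} (h : IsLogAsymp g c) :
    ∃ M, ∀ᶠ s in 𝓝[>] (1 : ℝ), |primeSum g s - c * (-Real.log (s - 1))| ≤ M := by
  obtain ⟨M, hM⟩ := h.isBigO.bound
  exact ⟨M, hM.mono fun s hs => by simpa using hs⟩

/-- **Equidistribution.** Degree one primes with norm `≡ τ` have density `1 / ord τ` once those with
norm `≡ 1` do and the norms generate the powers of `τ`. -/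
theorem isLogAsymp_class (τ : (ZMod q)ˣ) (S : Finset ℕ)
    (hgen : ∀ ψ : DirichletCharacter ℂ q, ψ (τ : ZMod q) ≠ 1 → ∀ T : Finset ℕ,
      ∃ p : ℕ, p.Prime ∧ p ∉ T ∧ idealCount K p ≠ 0 ∧ ψ (p : ZMod q) ≠ 1)
    (hsub : ∀ p : ℕ, p.Prime → p ∉ S → idealCount K p ≠ 0 →
      ∃ k : ℕ, (p : ZMod q) = ((τ ^ k : (ZMod q)ˣ) : ZMod q))
    (hone : IsLogAsymp (fun p : Nat.Primes =>
      if ((p : ℕ) : ZMod q) = 1 then (idealCount K p : ℝ) else 0) (1 / orderOf τ)) :
    IsLogAsymp (fun p : Nat.Primes =>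
      if ((p : ℕ) : ZMod q) = (τ : ZMod q) then (idealCount K p : ℝ) else 0) (1 / orderOf τ) := by
  have : NeZero q := ⟨(Fact.out : q.Prime).ne_zero⟩
  obtain ⟨p₀, hp₀⟩ := exists_log K
  set T₀ := (Finset.range (p₀ + 1) ∪ S).filter Nat.Prime
  set m := q * ∏ p ∈ T₀, p
  have hm0 : m ≠ 0 := mul_ne_zero (NeZero.ne q)
    (Finset.prod_ne_zero_iff.mpr fun p hp => (Finset.mem_filter.mp hp).2.ne_zero)
  have : NeZero m := ⟨hm0⟩
  have hqm : q ∣ m := dvd_mul_right _ _
  have hT₀ : ∀ p : ℕ, p.Prime → (p ≤ p₀ ∨ p ∈ S) → p ∣ m := fun p hp h =>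
    dvd_mul_of_dvd_right (Finset.dvd_prod_of_mem (fun p => p) (Finset.mem_filter.mpr ⟨by
      rcases h with h | h
      · exact Finset.mem_union_left _ (Finset.mem_range.mpr (Nat.lt_succ_of_le h))
      · exact Finset.mem_union_right _ h, hp⟩)) _
  have hsub' : ∀ p : ℕ, p.Prime → ¬ p ∣ m → idealCount K p ≠ 0 →
      ∃ k : ℕ, (p : ZMod q) = ((τ ^ k : (ZMod q)ˣ) : ZMod q) :=
    fun p hp hd => hsub p hp fun h => hd (hT₀ p hp (Or.inr h))
  let χ : DirichletCharacter ℂ q → DirichletCharacter ℂ m := DirichletCharacter.changeLevel hqm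
  obtain ⟨M₀, hM₀⟩ := exists_bound_of_isLogAsymp ((Fermat.CFT.isLogAsymp_idealCount K).congr_finite
    (fun p => abs_weight_le K _ p) (finite_ne_of_eq_away hm0 fun p hp => by simp [awayWeight, hp]) :
      IsLogAsymp (awayWeight K m) 1)
  obtain ⟨M₁, hM₁⟩ := exists_bound_of_isLogAsymp (hone.congr_finite (fun p => abs_weight_le K _ p)
    (finite_ne_of_eq_away hm0 fun p hp => by simp [classWeight, hp]) :
      IsLogAsymp (classWeight K m (1 : ZMod q)) (1 / orderOf τ))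
  -- the logarithms of the nontrivial sums and their upper bounds
  set k := (Finset.univ.filter fun ψ : DirichletCharacter ℂ q => ψ (τ : ZMod q) = 1).card
  have hkR : (k : ℝ) = q.totient * (1 / orderOf τ : ℝ) := card_apply_eq_one τ
  set Ψ := Finset.univ.filter fun ψ : DirichletCharacter ℂ q => ¬ ψ (τ : ZMod q) = 1
  have hψ : ∀ ψ ∈ Ψ, ∃ (Λ : ℝ → ℂ) (ℓ : ℂ) (B : ℝ), ContinuousOn Λ (Set.Ioi 1) ∧
      (∀ s, 1 < s → ‖Λ s - pser K (χ ψ) s‖ ≤ B) ∧
      (∀ᶠ s in 𝓝[>] (1 : ℝ), Complex.exp (Λ s) = lser K (χ ψ) s) ∧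
      Tendsto (lser K (χ ψ)) (𝓝[>] 1) (𝓝 ℓ) ∧
      ∀ᶠ s in 𝓝[>] (1 : ℝ), (pser K (χ ψ) s).re ≤ B + Real.log (‖ℓ‖ + 1) := by
    intro ψ hψ
    obtain ⟨Λ, hc, ⟨B, hB⟩, hexp⟩ := hp₀ m (χ ψ) fun p hp h => hT₀ p hp (Or.inl h)
    obtain ⟨p, hp, hpT, hp0, hne⟩ := hgen ψ (Finset.mem_filter.mp hψ).2 m.divisors
    have hpm : ¬ p ∣ m := fun h => hpT (Nat.mem_divisors.mpr ⟨h, hm0⟩)
    obtain ⟨ℓ, hℓ, hup⟩ := exists_tendsto_re_pser_le K (χ ψ) hp hpm hp0
      (by simpa [χ, changeLevel_apply_prime hqm ψ ⟨p, hp⟩, hpm] using hne) hB hexp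
    exact ⟨Λ, ℓ, B, hc, hB, hexp, hℓ, hup⟩
  choose! Λ ℓ B hΛc hΛB hΛexp hℓ hup using hψ
  -- the trivial class bounds their real parts from below
  have hlow : ∀ᶠ s in 𝓝[>] (1 : ℝ), ∀ ψ ∈ Ψ, -((q.totient : ℝ) * M₁ + (k : ℝ) * M₀ +
      ∑ φ ∈ Ψ, |B φ + Real.log (‖ℓ φ‖ + 1)|) ≤ (pser K (χ ψ) s).re := by
    filter_upwards [self_mem_nhdsWithin, hM₀, hM₁, (Ψ.eventually_all).mpr hup]
      with s hs h0 h1 hu ψ hψ
    have h := congrArg Complex.re (sum_nontrivial_mul_pser K hqm hsub'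
      (Or.inl rfl : (1 : (ZMod q)ˣ) = 1 ∨ _) hs)
    simp only [inv_one, Units.val_one, map_one, one_mul, Complex.re_sum, Complex.sub_re,
      Complex.mul_re, Complex.natCast_re, Complex.natCast_im, Complex.ofReal_re, zero_mul,
      sub_zero] at h
    rw [← Finset.add_sum_erase _ _ hψ] at h
    have h2 : ∑ φ ∈ Ψ.erase ψ, (pser K (χ φ) s).re ≤
        ∑ φ ∈ Ψ, |B φ + Real.log (‖ℓ φ‖ + 1)| :=
      (Finset.sum_le_sum fun φ hφ => (hu φ (Finset.mem_of_mem_erase hφ)).trans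
        (le_abs_self _)).trans
        (Finset.sum_le_sum_of_subset_of_nonneg (Finset.erase_subset _ _) fun _ _ _ => abs_nonneg _)
    have h3 : (k : ℝ) * (-Real.log (s - 1)) =
        (q.totient : ℝ) * ((1 / orderOf τ) * (-Real.log (s - 1))) := by rw [hkR]; ring
    obtain ⟨h0a, h0b⟩ := abs_le.mp h0
    obtain ⟨h1a, h1b⟩ := abs_le.mp h1
    nlinarith [mul_le_mul_of_nonneg_left h1a (Nat.cast_nonneg (α := ℝ) q.totient),
      mul_le_mul_of_nonneg_left h0b (Nat.cast_nonneg (α := ℝ) k)]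
  -- so the nontrivial sums are bounded
  have hbdd : ∀ ψ ∈ Ψ, ∃ A : ℝ, ∀ᶠ s in 𝓝[>] (1 : ℝ), ‖pser K (χ ψ) s‖ ≤ A := fun ψ hψ =>
    exists_eventually_norm_pser_le K (χ ψ) (hΛc ψ hψ) (hΛB ψ hψ) (hΛexp ψ hψ) (hℓ ψ hψ)
      (hlow.mono fun s h => h ψ hψ)
  choose! A hA using hbdd
  -- orthogonality gives the class of `τ`
  have hmain : IsLogAsymp (classWeight K m (τ : ZMod q)) (1 / orderOf τ) := by
    refine ⟨⟨_, fun p => abs_weight_le K _ p⟩, IsBigO.of_bound
      ((∑ ψ ∈ Ψ, A ψ + (k : ℝ) * M₀) / q.totient) ?_⟩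
    filter_upwards [self_mem_nhdsWithin, hM₀, (Ψ.eventually_all).mpr hA] with s hs h0 hb
    have hq : (0 : ℝ) < q.totient := by
      exact_mod_cast Nat.totient_pos.mpr (Fact.out : q.Prime).pos
    have h := sum_nontrivial_mul_pser K hqm hsub' (Or.inr rfl : τ = 1 ∨ τ = τ) hs
    have h1 : |(q.totient : ℝ) * primeSum (classWeight K m (τ : ZMod q)) s -
        (k : ℝ) * primeSum (awayWeight K m) s| ≤ ∑ ψ ∈ Ψ, A ψ := by
      rw [← Real.norm_eq_abs, ← Complex.norm_real]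
      push_cast
      rw [← h]
      refine (norm_sum_le _ _).trans (Finset.sum_le_sum fun ψ hψ => ?_)
      rw [norm_mul]
      exact (mul_le_of_le_one_left (norm_nonneg _) (DirichletCharacter.norm_le_one ψ _)).trans
        (hb ψ hψ)
    rw [norm_one, mul_one, Real.norm_eq_abs, le_div_iff₀ hq, ← abs_of_pos hq, ← abs_mul]
    have e : (primeSum (classWeight K m (τ : ZMod q)) s -
        1 / orderOf τ * -Real.log (s - 1)) * (q.totient : ℝ) =
        ((q.totient : ℝ) * primeSum (classWeight K m (τ : ZMod q)) s - (k : ℝ) *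
          primeSum (awayWeight K m) s) +
          (k : ℝ) * (primeSum (awayWeight K m) s - 1 * -Real.log (s - 1)) := by rw [hkR]; ring
    rw [e]
    refine (abs_add_le _ _).trans (add_le_add h1 ?_)
    rw [abs_mul, Nat.abs_cast]
    exact mul_le_mul_of_nonneg_left h0 (Nat.cast_nonneg _)
  exact hmain.congr_finite (fun p => abs_weight_le K _ p) (finite_ne_of_eq_away hm0 fun p hp => by
    simp [classWeight, hp])

end Fermat.DS.Cheb

end
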