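import Fermat.Agent.DS.Cheb.Weight
import Fermat.Agent.CFT.Density.IdealCount

/-!
# Ideals of a class as lattice points

The ideals of a class, weighted by a Dirichlet character of the norm and a power of the norm, are
summed as a periodic function times the weighted kernel over the lattice of an ideal of the inverse
class; restricting to the multiples of an ideal prime to the modulus divides the periodic sum by the
norm, up to a term with a limit at `1⁺`.
-/

set_option autoImplicit false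
set_option linter.unusedSectionVars false

noncomputable section

open Filter Topology Module NumberField Ideal
open scoped Classical nonZeroDivisors

namespace Fermat.DS.Cheb

variable {K : Type*} [Field K] [NumberField K]

/-! ### The norm on an ideal, divided by the norm of the ideal -/

/-- On a nonzero ideal the norm is an integer of absolute value the norm of the ideal times a
function periodic modulo every `m`. -/
lemma exists_normQuot (J : Ideal (𝓞 K)) (hJ : J ≠ ⊥) :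
    ∃ (κ : ℤ) (D : J → ℤ), κ.natAbs = absNorm J ∧ (∀ α : J, Algebra.norm ℤ (α : 𝓞 K) = κ * D α) ∧
      ∀ (m : ℕ) (α β γ : J), α = β + m • γ → (D α : ZMod m) = D β := by
  let b := RingOfIntegers.basis K
  let bI := Ideal.selfBasis b J hJ
  let M : J →ₗ[ℤ] Matrix _ _ ℤ :=
    { toFun := fun α => LinearMap.toMatrix b bI
        ((LinearMap.toSpanSingleton (𝓞 K) J α).restrictScalars ℤ)
      map_add' := fun α β => by
        rw [← map_add]; congr 1; ext x; simp
      map_smul' := fun c α => by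
        rw [RingHom.id_apply, ← map_smul]; congr 1; ext x; simp [smul_comm x c α] }
  refine ⟨b.det ((↑) ∘ bI), fun α => (M α).det, Ideal.natAbs_det_basis_change b J bI,
    fun α => ?_, fun m α β γ h => ?_⟩
  · rw [Algebra.norm_eq_matrix_det b, Basis.det_apply, ← Matrix.det_mul]
    congr 1
    have h : Algebra.lmul ℤ (𝓞 K) (α : 𝓞 K) = (J.subtype.restrictScalars ℤ) ∘ₗ
        ((LinearMap.toSpanSingleton (𝓞 K) J α).restrictScalars ℤ) := by
      ext x; simp [mul_comm]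
    rw [Algebra.leftMulMatrix_apply, h, LinearMap.toMatrix_comp b bI b]
    congr 1
    ext i j
    simp [LinearMap.toMatrix_apply, Basis.toMatrix_apply]
  · have h' : M α = M β + m • M γ := by rw [h, map_add, map_nsmul]
    change (((M α).det : ℤ) : ZMod m) = ((M β).det : ℤ)
    rw [← eq_intCast (Int.castRingHom (ZMod m)), ← eq_intCast (Int.castRingHom (ZMod m)),
      RingHom.map_det, RingHom.map_det]
    congr 1
    ext i j
    simp only [RingHom.mapMatrix_apply, Matrix.map_apply, h', Matrix.add_apply, Matrix.smul_apply,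
      map_add, map_nsmul]
    simp

/-! ### One class -/

/-- A twisted power of a natural number. -/
def nterm {m : ℕ} (χ : DirichletCharacter ℂ m) (s : ℝ) (k : ℕ) : ℂ :=
  χ k * (((k : ℝ) ^ (-s) : ℝ) : ℂ)

variable (C : ClassGroup (𝓞 K)) (J : (Ideal (𝓞 K))⁰)

/-- An ideal of the class `C` times a representative of the inverse class is principal. -/
lemma isPrincipal_mul_rep (hJ : ClassGroup.mk0 J = C⁻¹)
    (a : {a : (Ideal (𝓞 K))⁰ // ClassGroup.mk0 a = C}) :
    (((a.1 * J : (Ideal (𝓞 K))⁰)) : Ideal (𝓞 K)).IsPrincipal := by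
  refine (ClassGroup.mk0_eq_one_iff (a.1 * J).2).mp ?_
  change ClassGroup.mk0 (a.1 * J) = 1
  rw [map_mul, a.2, hJ, mul_inv_cancel]

/-- An ideal of the class and a unit give an element of the representing ideal. -/
theorem exists_classEquiv (hJ : ClassGroup.mk0 J = C⁻¹) :
    ∃ Φ : {a : (Ideal (𝓞 K))⁰ // ClassGroup.mk0 a = C} × (𝓞 K)ˣ ≃
        {α : (J : Ideal (𝓞 K)) // α ≠ 0},
      (∀ p, span {((Φ p).1 : 𝓞 K)} = (p.1.1 : Ideal (𝓞 K)) * J) ∧
      ∀ a u, ((Φ (a, u)).1 : 𝓞 K) = u * ((Φ (a, 1)).1 : 𝓞 K) := by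
  -- a generator `g a` of `a J` for each ideal `a` of the class
  choose g hg using fun a => (isPrincipal_mul_rep C J hJ a).principal
  replace hg : ∀ a : {a : (Ideal (𝓞 K))⁰ // ClassGroup.mk0 a = C},
      span {g a} = (a.1 : Ideal (𝓞 K)) * J := fun a => by
    rw [← Submonoid.coe_mul, hg a]
  have hJ0 : (J : Ideal (𝓞 K)) ≠ ⊥ := nonZeroDivisors.coe_ne_zero J
  have hg0 : ∀ a, g a ≠ 0 := fun a h => by
    have := hg a
    rw [h, span_singleton_zero, eq_comm, Ideal.mul_eq_bot] at this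
    exact this.elim (nonZeroDivisors.coe_ne_zero a.1) hJ0
  have hspan : ∀ a (u : (𝓞 K)ˣ), span {(u : 𝓞 K) * g a} = (a.1 : Ideal (𝓞 K)) * J := fun a u => by
    rw [span_singleton_mul_left_unit u.isUnit, hg]
  have hmem : ∀ a (u : (𝓞 K)ˣ), (u : 𝓞 K) * g a ∈ (J : Ideal (𝓞 K)) := fun a u =>
    Ideal.mul_le_right ((hspan a u) ▸ Ideal.mem_span_singleton_self _)
  let φ : {a : (Ideal (𝓞 K))⁰ // ClassGroup.mk0 a = C} × (𝓞 K)ˣ →
      {α : (J : Ideal (𝓞 K)) // α ≠ 0} := fun p =>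
    ⟨⟨p.2 * g p.1, hmem _ _⟩, fun h =>
      mul_ne_zero p.2.ne_zero (hg0 p.1) (congrArg Subtype.val h)⟩
  -- `(a, u) ↦ u g a` is bijective
  have hφ : Function.Bijective φ := by
    refine ⟨fun p p' h => ?_, fun α => ?_⟩
    · have h1 : (p.2 : 𝓞 K) * g p.1 = p'.2 * g p'.1 := congrArg (fun x => (x.1 : 𝓞 K)) h
      have h2 : p.1 = p'.1 := Subtype.ext (Subtype.ext (mul_right_cancel₀ hJ0 (by
        rw [← hspan p.1 p.2, ← hspan p'.1 p'.2, h1])))
      rw [h2] at h1
      exact Prod.ext h2 (Units.ext (mul_right_cancel₀ (hg0 _) h1))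
    · have hα : ((α.1 : (J : Ideal (𝓞 K))) : 𝓞 K) ≠ 0 := fun h => α.2 (Subtype.ext h)
      obtain ⟨a, ha⟩ := Ideal.dvd_iff_le.mpr ((span_singleton_le_iff_mem _).mpr α.1.2)
      have ha0 : a ≠ ⊥ := fun h => hα (by simpa [h] using ha)
      have haC : ClassGroup.mk0 (⟨a, mem_nonZeroDivisors_of_ne_zero ha0⟩ : (Ideal (𝓞 K))⁰) = C := by
        have h1 : ClassGroup.mk0
            (J * ⟨a, mem_nonZeroDivisors_of_ne_zero ha0⟩ : (Ideal (𝓞 K))⁰) = 1 :=
          (ClassGroup.mk0_eq_one_iff _).mpr ⟨(α.1 : 𝓞 K), ha.symm⟩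
        rw [map_mul, hJ, inv_mul_eq_one] at h1
        exact h1.symm
      set a' : {a : (Ideal (𝓞 K))⁰ // ClassGroup.mk0 a = C} := ⟨_, haC⟩
      have h2 : span {g a'} = span {(α.1 : 𝓞 K)} := by rw [hg, ha, mul_comm]
      obtain ⟨u, hu⟩ := span_singleton_eq_span_singleton.mp h2
      refine ⟨(a', u), Subtype.ext (Subtype.ext ?_)⟩
      change (u : 𝓞 K) * g a' = _
      rw [mul_comm, hu]
  refine ⟨Equiv.ofBijective φ hφ, fun p => hspan p.1 p.2, fun a u => ?_⟩
  change (u : 𝓞 K) * g a = u * ((1 : (𝓞 K)ˣ) * g a)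
  rw [Units.val_one, one_mul]

variable {m : ℕ} [NeZero m] (χ : DirichletCharacter ℂ m)

/-- The value of the character at `|D|`, from that at `D` and the signs of `κ` and `κ D`. -/
lemma chi_natAbs (κ D : ℤ) (hκ : κ ≠ 0) (hD : D ≠ 0) :
    χ (D.natAbs : ℕ) = (if κ < 0 then χ (-1) else 1) * χ (D : ZMod m) *
      (if κ * D < 0 then χ (-1) else 1) := by
  have hη : χ (-1) * χ (-1) = (1 : ℂ) := by rw [← map_mul, neg_one_mul, neg_neg, map_one]
  rcases Int.natAbs_eq D with h | h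
  · have hpos : 0 < D := by omega
    have e1 : (D.natAbs : ZMod m) = (D : ZMod m) := by
      conv_rhs => rw [h]
      rw [Int.cast_natCast]
    simp only [mul_neg_iff, hpos, hpos.not_gt, and_false, and_true, false_or, e1]
    split_ifs
    · linear_combination -χ (D : ZMod m) * hη
    · ring
  · have hneg : D < 0 := by omega
    have e1 : (D.natAbs : ZMod m) = -(D : ZMod m) := by
      conv_rhs => rw [h]
      rw [Int.cast_neg, Int.cast_natCast, neg_neg]
    rw [e1, ← neg_one_mul (D : ZMod m), map_mul]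
    simp only [mul_neg_iff, hneg, hneg.not_gt, and_false, and_true, or_false]
    rcases lt_or_gt_of_ne hκ with hk | hk
    · simp [hk, hk.not_gt]
    · simp [hk, hk.not_gt, mul_comm]

/-- The elements of `J` lying in `I`. -/
def inside (J I : Ideal (𝓞 K)) : AddSubgroup J :=
  I.toAddSubgroup.comap J.toAddSubgroup.subtype

/-- Membership in `inside`, unfolded. -/
lemma mem_inside {J I : Ideal (𝓞 K)} {x : J} : x ∈ inside J I ↔ (x : 𝓞 K) ∈ I := Iff.rfl

/-- For `f` periodic mod `m`, the product of `f` with the indicator of `J P` less `1 / N P`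
factors through a finite quotient of `J`, with mean zero. -/
theorem exists_periodic (J P : Ideal (𝓞 K)) (hJ : J ≠ ⊥) (hP0 : P ≠ ⊥)
    (hP : (absNorm P).Coprime m)
    (f : J → ℂ)
    (hf : ∀ α β γ : J, α = β + m • γ → f α = f β) :
    ∃ (_ : Fintype (J ⧸
        inside J (span {(m : 𝓞 K)} * (J * P))))
      (c : J ⧸
        inside J (span {(m : 𝓞 K)} * (J * P)) → ℂ),
      (∀ α : J, c α = f α *
        ((if (α : 𝓞 K) ∈ J * P then 1 else 0) -
          (absNorm P : ℂ)⁻¹)) ∧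
      ∑ x, c x = 0 := by
  set NP := absNorm P
  set I : Ideal (𝓞 K) := span {(m : 𝓞 K)} * (J * P) with hI
  set B := inside J I
  set B₁ := inside J (span {(m : 𝓞 K)} * J)
  set B₂ := inside J (J * P)
  have hI0 : I ≠ ⊥ := mul_ne_zero
    (fun h => NeZero.ne m (Nat.cast_eq_zero.mp (span_singleton_eq_bot.mp h)))
    (mul_ne_zero hJ hP0)
  have hle₁ : B ≤ B₁ := fun x hx => mem_inside.mpr
    ((mul_assoc (span {(m : 𝓞 K)}) J P).symm.trans_le Ideal.mul_le_left
      (mem_inside.mp hx))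
  have hle₂ : B ≤ B₂ := fun x hx => mem_inside.mpr (Ideal.mul_le_right (mem_inside.mp hx))
  -- `P` and `(m)` are coprime
  obtain ⟨v, hv, u, hu, huv⟩ : ∃ v ∈ P, ∃ u ∈ span {(m : 𝓞 K)}, v + u = 1 := by
    rw [← Submodule.mem_sup, ← Ideal.eq_top_iff_one, eq_top_iff,
      ← Fermat.CFT.span_sup_span_eq_top (K := K) hP]
    exact sup_le_sup_right ((span_singleton_le_iff_mem _).mpr (absNorm_mem _)) _
  have : Finite (𝓞 K ⧸ I.toAddSubgroup) := finiteQuotientOfFreeOfNeBot I hI0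
  have : Finite (J ⧸ B) := Finite.of_injective
    (QuotientAddGroup.map B I.toAddSubgroup J.toAddSubgroup.subtype le_rfl) <| by
      rw [injective_iff_map_eq_zero]
      intro x
      obtain ⟨y, rfl⟩ := QuotientAddGroup.mk_surjective x
      rw [QuotientAddGroup.map_mk, QuotientAddGroup.eq_zero_iff, QuotientAddGroup.eq_zero_iff]
      exact fun h => h
  let π : J ⧸ B →+ (J ⧸ B₁) × (J ⧸ B₂) := (QuotientAddGroup.map B B₁ (AddMonoidHom.id _) hle₁).prod
    (QuotientAddGroup.map B B₂ (AddMonoidHom.id _) hle₂)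
  -- the quotient splits along the two ideals
  have hπ : Function.Bijective π := by
    constructor
    · rw [injective_iff_map_eq_zero]
      intro x hx
      obtain ⟨x, rfl⟩ := QuotientAddGroup.mk_surjective x
      obtain ⟨h1, h2⟩ := Prod.ext_iff.mp hx
      simp only [π, AddMonoidHom.prod_apply, QuotientAddGroup.map_mk, AddMonoidHom.id_apply,
        Prod.fst_zero, Prod.snd_zero, QuotientAddGroup.eq_zero_iff, B₁, B₂, mem_inside] at h1 h2
      rw [QuotientAddGroup.eq_zero_iff, mem_inside]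
      have e1 : v * (x : 𝓞 K) ∈ I := by
        have := Ideal.mul_mem_mul hv h1
        rwa [mul_comm P, mul_assoc] at this
      have e2 : u * (x : 𝓞 K) ∈ I := Ideal.mul_mem_mul hu h2
      have := add_mem e1 e2
      rwa [← add_mul, huv, one_mul] at this
    · rintro ⟨y, z⟩
      obtain ⟨y, rfl⟩ := QuotientAddGroup.mk_surjective y
      obtain ⟨z, rfl⟩ := QuotientAddGroup.mk_surjective z
      refine ⟨((v • y + u • z : J) : J ⧸ B), Prod.ext ?_ ?_⟩
      all_goals
        simp only [π, AddMonoidHom.prod_apply, QuotientAddGroup.map_mk, AddMonoidHom.id_apply]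
        rw [QuotientAddGroup.eq, mem_inside]
        simp only [Submodule.coe_add, Submodule.coe_neg, Submodule.coe_smul, smul_eq_mul]
      · rw [show -(v * (y : 𝓞 K) + u * z) + y = u * ((y : 𝓞 K) - z) by
          linear_combination (-(y : 𝓞 K)) * huv]
        exact Ideal.mul_mem_mul hu (sub_mem y.2 z.2)
      · rw [show -(v * (y : 𝓞 K) + u * z) + z = ((z : 𝓞 K) - y) * v by
          linear_combination (-(z : 𝓞 K)) * huv]
        exact Ideal.mul_mem_mul (sub_mem z.2 y.2) hv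
  have hs₁ : Function.Surjective (fun x => (π x).1) := fun y => by
    obtain ⟨x, hx⟩ := hπ.2 (y, 0); exact ⟨x, congrArg Prod.fst hx⟩
  have hs₂ : Function.Surjective (fun x => (π x).2) := fun y => by
    obtain ⟨x, hx⟩ := hπ.2 (0, y); exact ⟨x, congrArg Prod.snd hx⟩
  have : Finite (J ⧸ B₁) := Finite.of_surjective _ hs₁
  have : Finite (J ⧸ B₂) := Finite.of_surjective _ hs₂
  have : Fintype (J ⧸ B₁) := Fintype.ofFinite _
  have : Fintype (J ⧸ B₂) := Fintype.ofFinite _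
  -- the second quotient has `N P` elements
  have hcard : Fintype.card (J ⧸ B₂) = NP := by
    rw [← Nat.card_eq_fintype_card]
    change B₂.index = NP
    have h1 : B₂.index = (J * P).toAddSubgroup.relIndex J.toAddSubgroup := rfl
    have h2 := AddSubgroup.relIndex_mul_index (H := (J * P).toAddSubgroup) (K := J.toAddSubgroup)
      Ideal.mul_le_left
    rw [← absNorm_eq_index, ← absNorm_eq_index, map_mul, ← h1, mul_comm (absNorm J)] at h2
    exact Nat.eq_of_mul_eq_mul_right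
      (Nat.pos_of_ne_zero (fun h => hJ (absNorm_eq_zero_iff.mp h))) h2
  -- the two factors of the function
  let f₁ : J ⧸ B₁ → ℂ := fun x => Quotient.liftOn' x f fun α β h => by
    rw [QuotientAddGroup.leftRel_apply, mem_inside] at h
    obtain ⟨γ, hγ, hγe⟩ := Ideal.mem_span_singleton_mul.mp h
    refine (hf β α ⟨γ, hγ⟩ (Subtype.ext ?_)).symm
    push_cast [nsmul_eq_mul]
    simp only [Submodule.coe_add, Submodule.coe_neg] at hγe
    linear_combination -hγe
  let f₂ : J ⧸ B₂ → ℂ := fun x => (if x = 0 then 1 else 0) - (NP : ℂ)⁻¹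
  have hfin : Fintype (J ⧸ B) := Fintype.ofFinite _
  refine ⟨hfin, fun x => f₁ (π x).1 * f₂ (π x).2, fun α => ?_, ?_⟩
  · change f α * ((if (α : J ⧸ B₂) = 0 then 1 else 0) - (NP : ℂ)⁻¹) = _
    simp only [QuotientAddGroup.eq_zero_iff, B₂, mem_inside]
  · rw [Fintype.sum_bijective π hπ _ (fun p => f₁ p.1 * f₂ p.2) fun _ => rfl,
      Fintype.sum_prod_type, ← Finset.sum_mul_sum]
    simp only [f₂, Finset.sum_sub_distrib, Finset.sum_ite_eq', Finset.mem_univ, if_true,
      Finset.sum_const, Finset.card_univ, hcard, nsmul_eq_mul]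
    rw [mul_inv_cancel₀ (Nat.cast_ne_zero.mpr fun h => hP0 (absNorm_eq_zero_iff.mp h)), sub_self,
      mul_zero]

/-- The embedding of an ideal in the mixed space. -/
def embHom (J : Ideal (𝓞 K)) : J →+ mixedEmbedding.mixedSpace K :=
  ((mixedEmbedding K).comp (algebraMap (𝓞 K) K)).toAddMonoidHom.comp J.toAddSubgroup.subtype

/-- `embHom` is the mixed embedding. -/
lemma embHom_apply (J : Ideal (𝓞 K)) (x : J) :
    embHom J x = mixedEmbedding K ((x : 𝓞 K) : K) := rfl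

/-- The norm on the mixed space restricts to the absolute norm. -/
lemma norm_embHom (J : Ideal (𝓞 K)) (x : J) :
    mixedEmbedding.norm (embHom J x) = ((Algebra.norm ℤ (x : 𝓞 K)).natAbs : ℝ) := by
  rw [embHom_apply, mixedEmbedding.norm_eq_norm, ← Algebra.coe_norm_int, Nat.cast_natAbs,
    Int.cast_abs, Rat.cast_abs, Rat.cast_intCast]

/-- A sum over pairs of an ideal and a unit, weighted by the partition of unity. -/
lemma tsum_wt {ι : Type*} {A : Type*} [AddCommGroup A] (Φ : ι × (𝓞 K)ˣ ≃ {α : A // α ≠ 0})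
    (x : ι → mixedEmbedding.mixedSpace K) (hx : ∀ a, mixedEmbedding.norm (x a) ≠ 0)
    (F : A → ℂ) (E : ι → ℂ) (hF0 : F 0 = 0) (hE : Summable fun a => ‖E a‖)
    (hF : ∀ a w, F (Φ (a, w)).1 = (wt (w • x a) : ℂ) * E a) :
    Summable F ∧ ∑' y, F y = ∑' a, E a := by
  have h0 : Summable fun p : ι × (𝓞 K)ˣ => wt (p.2 • x p.1) * ‖E p.1‖ := by
    have hn : 0 ≤ fun p : ι × (𝓞 K)ˣ => wt (p.2 • x p.1) * ‖E p.1‖ := fun p =>
      mul_nonneg (wt_nonneg (p.2 • x p.1)) (norm_nonneg (E p.1))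
    refine (summable_prod_of_nonneg hn).mpr ⟨fun a => ?_, ?_⟩
    · exact (hasSum_wt (hx a)).summable.mul_right (‖E a‖)
    · refine hE.congr fun a => ?_
      change ‖E a‖ = ∑' u : (𝓞 K)ˣ, wt (u • x a) * ‖E a‖
      rw [tsum_mul_right, (hasSum_wt (hx a)).tsum_eq, one_mul]
  have h1 : Summable fun p : ι × (𝓞 K)ˣ => F (Φ p).1 := by
    refine Summable.of_norm_bounded h0 fun p => ?_
    rw [show F (Φ p).1 = _ from hF p.1 p.2, norm_mul, Complex.norm_real, Real.norm_eq_abs,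
      abs_of_nonneg (wt_nonneg _)]
  have hsupp : ∀ y, y ∉ Set.range (fun y : {α : A // α ≠ 0} => y.1) → F y = 0 := fun y hy => by
    rw [show y = 0 from by_contra fun h => hy ⟨⟨y, h⟩, rfl⟩, hF0]
  refine ⟨(Subtype.val_injective.summable_iff hsupp).mp (Φ.summable_iff.mp h1), ?_⟩
  rw [← Subtype.val_injective.tsum_eq (f := F) fun y hy => by_contra fun h => hy (hsupp y h),
    ← Φ.tsum_eq (fun y : {α : A // α ≠ 0} => F y.1), h1.tsum_prod' fun a => h1.prod_factor a]
  refine tsum_congr fun a => ?_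
  simp only [hF, tsum_mul_right]
  rw [← Complex.ofReal_tsum, (hasSum_wt (hx a)).tsum_eq, Complex.ofReal_one, one_mul]

/-- The lattice of `I' J P` consists of the embedded elements of `J` inside `I' J P`. -/
private lemma mem_idealLattice_iff_inside (J P : Ideal (𝓞 K)) (I : (Ideal (𝓞 K))⁰)
    (I' : Ideal (𝓞 K)) (hI : (I : Ideal (𝓞 K)) = I' * (J * P)) (x : mixedEmbedding.mixedSpace K) :
    x ∈ mixedEmbedding.idealLattice K (FractionalIdeal.mk0 K I) ↔
      ∃ y ∈ inside J (I' * (J * P)), embHom J y = x := by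
  rw [mixedEmbedding.mem_idealLattice, FractionalIdeal.coe_mk0, hI]
  constructor
  · rintro ⟨y, hy, rfl⟩
    obtain ⟨z, hz, rfl⟩ := (FractionalIdeal.mem_coeIdeal _).mp hy
    have hz' : z ∈ I' * (J * P) := hz
    exact ⟨⟨z, Ideal.mul_le_left (Ideal.mul_le_right hz')⟩, hz, rfl⟩
  · rintro ⟨y, hy, rfl⟩
    exact ⟨_, (FractionalIdeal.mem_coeIdeal _).mpr ⟨_, hy, rfl⟩, rfl⟩

variable {C J}
variable {Φ : {a : (Ideal (𝓞 K))⁰ // ClassGroup.mk0 a = C} × (𝓞 K)ˣ ≃
    {α : (J : Ideal (𝓞 K)) // α ≠ 0}}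
  (hΦs : ∀ p, span {((Φ p).1 : 𝓞 K)} = (p.1.1 : Ideal (𝓞 K)) * J)
  (hΦu : ∀ a u, ((Φ (a, u)).1 : 𝓞 K) = u * ((Φ (a, 1)).1 : 𝓞 K))
  {κ : ℤ} {D : ↥(J : Ideal (𝓞 K)) → ℤ} (hκ : κ.natAbs = absNorm (J : Ideal (𝓞 K)))
  (hD : ∀ α : (J : Ideal (𝓞 K)), Algebra.norm ℤ (α : 𝓞 K) = κ * D α)

include hΦs hΦu hκ hD in
/-- The norm, the reduced norm and the unit action at the element given by `(a, w)`. -/
private lemma classEquiv_norm (a : {a : (Ideal (𝓞 K))⁰ // ClassGroup.mk0 a = C}) (w : (𝓞 K)ˣ) :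
    mixedEmbedding.norm (embHom (J : Ideal (𝓞 K)) (Φ (a, w)).1) =
        (absNorm (a.1 : Ideal (𝓞 K)) : ℝ) * absNorm (J : Ideal (𝓞 K)) ∧
      (D (Φ (a, w)).1).natAbs = absNorm (a.1 : Ideal (𝓞 K)) ∧
      embHom (J : Ideal (𝓞 K)) (Φ (a, w)).1 = w • embHom (J : Ideal (𝓞 K)) (Φ (a, 1)).1 := by
  set NJ := absNorm (J : Ideal (𝓞 K))
  have hNJ : NJ ≠ 0 := absNorm_ne_zero_of_nonZeroDivisors J
  have h1 : (Algebra.norm ℤ ((Φ (a, w)).1 : 𝓞 K)).natAbs = absNorm (a.1 : Ideal (𝓞 K)) * NJ := by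
    rw [← absNorm_span_singleton, hΦs, map_mul]
  refine ⟨by rw [norm_embHom, h1, Nat.cast_mul], ?_, ?_⟩
  · rw [hD, Int.natAbs_mul, hκ, mul_comm] at h1
    exact Nat.eq_of_mul_eq_mul_right (Nat.pos_of_ne_zero hNJ) h1
  · simp only [embHom_apply]
    rw [hΦu]
    exact map_mul ((mixedEmbedding K).comp (algebraMap (𝓞 K) K)) _ _

include hΦs hΦu hκ hD in
/-- The embedded representatives have nonzero norm. -/
private lemma norm_emb_classEquiv_ne_zero (a : {a : (Ideal (𝓞 K))⁰ // ClassGroup.mk0 a = C}) :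
    mixedEmbedding.norm (embHom (J : Ideal (𝓞 K)) (Φ (a, 1)).1) ≠ 0 := by
  rw [(classEquiv_norm hΦs hΦu hκ hD a 1).1]
  exact mul_ne_zero (Nat.cast_ne_zero.mpr (absNorm_ne_zero_of_nonZeroDivisors a.1))
    (Nat.cast_ne_zero.mpr (absNorm_ne_zero_of_nonZeroDivisors J))

include hΦs hΦu hκ hD in
/-- The kernel at the element given by an ideal of the class and a unit. -/
private lemma kern_classEquiv (η : ℂ) (s : ℝ) (a : {a : (Ideal (𝓞 K))⁰ // ClassGroup.mk0 a = C})
    (w : (𝓞 K)ˣ) :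
    kern η s (embHom (J : Ideal (𝓞 K)) (Φ (a, w)).1) =
      (wt (w • embHom (J : Ideal (𝓞 K)) (Φ (a, 1)).1) : ℂ) *
      ((((absNorm (a.1 : Ideal (𝓞 K)) : ℝ) ^ (-s) *
          (absNorm (J : Ideal (𝓞 K)) : ℝ) ^ (-s) : ℝ) : ℂ) *
        (if κ * D (Φ (a, w)).1 < 0 then η else 1)) := by
  set NJ := absNorm (J : Ideal (𝓞 K))
  have hN := classEquiv_norm hΦs hΦu hκ hD
  have hx := norm_emb_classEquiv_ne_zero hΦs hΦu hκ hD
  have hsign : (algNorm (embHom (J : Ideal (𝓞 K)) (Φ (a, w)).1) < 0 ↔ κ * D (Φ (a, w)).1 < 0) := by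
    rw [embHom_apply, algNorm_mixedEmbedding, ← Algebra.coe_norm_int, hD, Rat.cast_intCast,
      Int.cast_lt_zero]
  have hne : mixedEmbedding.norm (embHom (J : Ideal (𝓞 K)) (Φ (a, w)).1) ≠ 0 := by
    rw [(hN a w).1, ← (hN a 1).1]; exact hx a
  rw [kern, if_neg hne, (hN a w).1, Real.mul_rpow (Nat.cast_nonneg _) (Nat.cast_nonneg _)]
  simp only [hsign]
  rw [(hN a w).2.2]
  push_cast
  ring

include hΦs hΦu hκ hD in
/-- The twisted sum over a class as a sum of the kernel over the lattice of the representing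
ideal. -/
private theorem latticeSum_eq_classSum (P : (Ideal (𝓞 K))⁰) (c : ↥(J : Ideal (𝓞 K)) → ℂ)
    (hc : ∀ α : (J : Ideal (𝓞 K)), c α = (if κ < 0 then χ (-1) else 1) * χ ((D α : ℤ) : ZMod m) *
      ((if (α : 𝓞 K) ∈ (J : Ideal (𝓞 K)) * P then 1 else 0) -
        (absNorm (P : Ideal (𝓞 K)) : ℂ)⁻¹))
    {s : ℝ} (hs : Summable fun a : (Ideal (𝓞 K))⁰ => (absNorm (a : Ideal (𝓞 K)) : ℝ) ^ (-s)) :
    (Summable fun y : (J : Ideal (𝓞 K)) => kern (χ (-1)) s (embHom (J : Ideal (𝓞 K)) y)) ∧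
      ∑' y : (J : Ideal (𝓞 K)), c y * kern (χ (-1)) s (embHom (J : Ideal (𝓞 K)) y) =
        (((absNorm (J : Ideal (𝓞 K)) : ℝ) ^ (-s) : ℝ) : ℂ) *
        ∑' a : {a : (Ideal (𝓞 K))⁰ // ClassGroup.mk0 a = C},
          ((if (P : Ideal (𝓞 K)) ∣ a.1 then (1 : ℂ) else 0) -
            (absNorm (P : Ideal (𝓞 K)) : ℂ)⁻¹) *
            nterm χ s (absNorm (a.1 : Ideal (𝓞 K))) := by
  set η : ℂ := χ (-1)
  set NJ := absNorm (J : Ideal (𝓞 K))
  have hκ0 : κ ≠ 0 := fun h => absNorm_ne_zero_of_nonZeroDivisors J (by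
    rw [show absNorm (J : Ideal (𝓞 K)) = NJ from rfl, ← hκ, h, Int.natAbs_zero])
  have hJ0 : (J : Ideal (𝓞 K)) ≠ ⊥ := nonZeroDivisors.coe_ne_zero J
  have hN := classEquiv_norm hΦs hΦu hκ hD
  have hx := norm_emb_classEquiv_ne_zero hΦs hΦu hκ hD
  have hkern := kern_classEquiv hΦs hΦu hκ hD η s
  have hC := hs.comp_injective
    (i := fun a : {a : (Ideal (𝓞 K))⁰ // ClassGroup.mk0 a = C} => a.1) Subtype.val_injective
  refine ⟨?_, ?_⟩
  -- summability, by unfolding over classes and units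
  · refine (tsum_wt Φ (fun a => embHom (J : Ideal (𝓞 K)) (Φ (a, 1)).1) hx
      (fun y => ((‖kern η s (embHom (J : Ideal (𝓞 K)) y)‖ : ℝ) : ℂ))
      (fun a => (((absNorm (a.1 : Ideal (𝓞 K)) : ℝ) ^ (-s) * (NJ : ℝ) ^ (-s) : ℝ) : ℂ))
      (by simp [(homLip_kern η).map_zero]) ?_ fun a w => ?_).1.norm.of_norm_bounded fun y => by simp
    · simp only [Complex.norm_real, Real.norm_eq_abs]
      exact (hC.mul_right ((NJ : ℝ) ^ (-s))).congr fun a => (abs_of_nonneg (mul_nonneg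
        (Real.rpow_nonneg (Nat.cast_nonneg _) _) (Real.rpow_nonneg (Nat.cast_nonneg _) _))).symm
    · have h1 : ‖(if κ * D (Φ (a, w)).1 < 0 then η else 1 : ℂ)‖ = 1 := by
        split_ifs
        · exact DirichletCharacter.unit_norm_eq_one χ (-1)
        · exact norm_one
      rw [hkern, norm_mul, norm_mul, h1, mul_one, Complex.norm_real, Complex.norm_real,
        Real.norm_eq_abs, Real.norm_eq_abs, abs_of_nonneg (wt_nonneg _),
        abs_of_nonneg (by positivity)]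
      push_cast
      ring
  -- the same unfolding for the weighted sum
  · rw [← tsum_mul_left]
    refine (tsum_wt Φ (fun a => embHom (J : Ideal (𝓞 K)) (Φ (a, 1)).1) hx
      (fun y => c y * kern η s (embHom (J : Ideal (𝓞 K)) y)) _
      (by simp [(homLip_kern η).map_zero]) ?_ fun a w => ?_).2
    · refine (hC.mul_left (2 * (NJ : ℝ) ^ (-s))).of_nonneg_of_le (fun a => norm_nonneg _)
        fun a => ?_
      rw [norm_mul, norm_mul, nterm, norm_mul, Complex.norm_real, Complex.norm_real,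
        Real.norm_eq_abs, Real.norm_eq_abs, abs_of_nonneg (by positivity),
        abs_of_nonneg (by positivity)]
      have h2 : ‖((if (P : Ideal (𝓞 K)) ∣ a.1 then (1 : ℂ) else 0) -
          (absNorm (P : Ideal (𝓞 K)) : ℂ)⁻¹)‖ ≤ 2 := by
        refine (norm_sub_le _ _).trans ?_
        rw [norm_inv, Complex.norm_natCast, ← one_add_one_eq_two]
        exact add_le_add (by split_ifs <;> simp) (Nat.cast_inv_le_one _)
      have hχ1 : ‖χ (absNorm (a.1 : Ideal (𝓞 K)) : ℕ)‖ ≤ 1 := DirichletCharacter.norm_le_one χ _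
      calc _ ≤ (NJ : ℝ) ^ (-s) * (2 * (1 * (absNorm (a.1 : Ideal (𝓞 K)) : ℝ) ^ (-s))) := by
            gcongr
        _ = _ := by simp only [Function.comp_apply]; ring
    · have hD0 : D (Φ (a, w)).1 ≠ 0 := fun h => absNorm_ne_zero_of_nonZeroDivisors a.1
        (by rw [← (hN a w).2.1, h, Int.natAbs_zero])
      have hmem : (((Φ (a, w)).1 : 𝓞 K) ∈ (J : Ideal (𝓞 K)) * P ↔
          (P : Ideal (𝓞 K)) ∣ a.1) := by
        rw [← span_singleton_le_iff_mem, hΦs, ← Ideal.dvd_iff_le,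
          mul_comm (J : Ideal (𝓞 K)), mul_dvd_mul_iff_right hJ0]
      have hχ := chi_natAbs χ κ (D (Φ (a, w)).1) hκ0 hD0
      rw [(hN a w).2.1] at hχ
      rw [hc, hkern, nterm, hχ]
      simp only [hmem]
      push_cast
      ring

variable (C)

/-- **One class, with its multiples of an ideal prime to the modulus.** -/
theorem exists_tendsto_class (P : (Ideal (𝓞 K))⁰)
    (hP : (absNorm (P : Ideal (𝓞 K))).Coprime m)
    (hs : ∀ᶠ s in 𝓝[>] (1 : ℝ),
      Summable fun a : (Ideal (𝓞 K))⁰ => (absNorm (a : Ideal (𝓞 K)) : ℝ) ^ (-s)) :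
    ∃ ℓ, Tendsto (fun s => (∑' a : {a : (Ideal (𝓞 K))⁰ // ClassGroup.mk0 a = C},
      ((if (P : Ideal (𝓞 K)) ∣ a.1 then (1 : ℂ) else 0) - (absNorm (P : Ideal (𝓞 K)) : ℂ)⁻¹) *
        nterm χ s (absNorm (a.1 : Ideal (𝓞 K))))) (𝓝[>] 1) (𝓝 ℓ) := by
  obtain ⟨J, hJ⟩ := ClassGroup.mk0_surjective C⁻¹
  obtain ⟨Φ, hΦs, hΦu⟩ := exists_classEquiv C J hJ
  have hJ0 : (J : Ideal (𝓞 K)) ≠ ⊥ := nonZeroDivisors.coe_ne_zero J
  obtain ⟨κ, D, hκ, hD, hper⟩ := exists_normQuot (J : Ideal (𝓞 K)) hJ0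
  set NJ := absNorm (J : Ideal (𝓞 K))
  have hNJ : NJ ≠ 0 := absNorm_ne_zero_of_nonZeroDivisors J
  obtain ⟨hfin, c, hc, hc0⟩ := exists_periodic (m := m) (J : Ideal (𝓞 K)) P hJ0
    (nonZeroDivisors.coe_ne_zero P) hP
    (fun α => (if κ < 0 then χ (-1) else 1) * χ ((D α : ℤ) : ZMod m))
    fun α β γ h => by rw [hper m α β γ h]
  set η : ℂ := χ (-1)
  have hm0 : span {(m : 𝓞 K)} ∈ (Ideal (𝓞 K))⁰ := mem_nonZeroDivisors_of_ne_zero
    fun h => NeZero.ne m (Nat.cast_eq_zero.mp (span_singleton_eq_bot.mp h))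
  set I : (Ideal (𝓞 K))⁰ := ⟨span {(m : 𝓞 K)}, hm0⟩ * (J * P)
  let e := embHom (J : Ideal (𝓞 K))
  have hinj : Function.Injective e := fun x y h =>
    Subtype.ext (FaithfulSMul.algebraMap_injective (𝓞 K) K (mixedEmbedding_injective K h))
  have hlat : ∀ᶠ s in 𝓝[>] (1 : ℝ), _ := hs.mono fun s hs =>
    latticeSum_eq_classSum χ hΦs hΦu hκ hD P (fun y => c (y : _ ⧸ _)) hc hs
  obtain ⟨ℓ, hℓ⟩ := exists_tendsto_periodic e _
    (mixedEmbedding.idealLattice K (FractionalIdeal.mk0 K I)) hinj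
    (mem_idealLattice_iff_inside (J : Ideal (𝓞 K)) P I _ rfl) (homLip_kern η) c hc0
    (hlat.mono fun s h => h.1)
  have hpow : Tendsto (fun s : ℝ => (((NJ : ℝ) ^ s : ℝ) : ℂ)) (𝓝[>] 1) (𝓝 (NJ : ℂ)) := by
    have h := ((Real.continuous_const_rpow (Nat.cast_ne_zero.mpr hNJ)).tendsto (1 : ℝ)).mono_left
      (nhdsWithin_le_nhds (s := Set.Ioi 1))
    simpa [Function.comp_def] using (Complex.continuous_ofReal.tendsto _).comp h
  refine ⟨(NJ : ℂ) * ℓ, (hpow.mul hℓ).congr' ?_⟩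
  filter_upwards [hlat] with s hs'
  rw [hs'.2, ← mul_assoc, ← Complex.ofReal_mul, ← Real.rpow_add (by positivity), add_neg_cancel,
    Real.rpow_zero, Complex.ofReal_one, one_mul]

end Fermat.DS.Cheb

end
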