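import Fermat.Agent.DS.Cheb.CharSum
import Fermat.Agent.CFT.Density.Galois

/-!
# Primes with a given Frobenius, for elements detected by a cyclotomic character

If a character of the Galois group sends the Frobenius at `p` to `p` modulo `q` and is injective on
the subgroup generated by `g`, the primes with Frobenius `g` have the expected density.
-/

set_option autoImplicit false

noncomputable section

open Filter NumberField Asymptotics
open Fermat.CFT

namespace Fermat.DS.Cheb

variable {M : Type*} [Field M] [NumberField M] [IsGalois ℚ M] {q : ℕ} [Fact q.Prime]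
  (cyc : (M ≃ₐ[ℚ] M) →* (ZMod q)ˣ)

variable (M) in
/-- The number of primes over `p` with Frobenius `g`. -/
def frobCount (g : M ≃ₐ[ℚ] M) (p : Nat.Primes) : ℝ := ((frobPrimes M p.2 {g}).card : ℝ)

omit [IsGalois ℚ M] in
/-- The count of primes with a given Frobenius is at most the degree. -/
lemma abs_frobCount_le (g : M ≃ₐ[ℚ] M) (p : Nat.Primes) :
    |frobCount M g p| ≤ Module.finrank ℚ M := by
  rw [frobCount, Nat.abs_cast]
  exact Nat.cast_le.mpr ((Finset.card_le_card fun Q hQ =>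
    (mem_primesAboveNat p.2).mpr ((mem_frobPrimes p.2).mp hQ).1).trans
      (card_primesAboveNat_le M p.2))

/-- **The density of the primes with Frobenius `g`.** -/
theorem isLogAsymp_frobCount
    (hfrob : ∀ p : ℕ, p.Prime → p ∉ exceptionalPrimes M → p ≠ q → ∀ Q : Ideal (𝓞 M), Q.IsPrime →
      (p : 𝓞 M) ∈ Q → ∀ σ, IsFrobeniusMod σ Q p → ((cyc σ : (ZMod q)ˣ) : ZMod q) = p)
    (g : M ≃ₐ[ℚ] M) (hg : orderOf (cyc g) = orderOf g) :
    IsLogAsymp (frobCount M g) (1 / orderOf g) := by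
  set H := Subgroup.zpowers g
  set E := IntermediateField.fixedField H
  set τ := cyc g
  set S := insert q (exceptionalPrimes M)
  -- `cyc` is injective on the cyclic group
  have hinj : ∀ σ ∈ H, ∀ σ' ∈ H, cyc σ = cyc σ' → σ = σ' := by
    intro σ hσ σ' hσ' h
    obtain ⟨i, rfl⟩ := mem_powers_iff_mem_zpowers.mpr hσ
    obtain ⟨j, rfl⟩ := mem_powers_iff_mem_zpowers.mpr hσ'
    simp only [map_pow] at h
    have hij := pow_eq_pow_iff_modEq.mp h
    rw [hg] at hij
    exact pow_eq_pow_iff_modEq.mpr hij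
  have hcard : Nat.card H = orderOf g := Nat.card_zpowers g
  have hmem : ∀ (p : ℕ) (hp : p.Prime), p ∉ S → ∀ Q ∈ frobPrimes M hp H,
      ((cyc (frobMod M Q p) : (ZMod q)ˣ) : ZMod q) = p ∧ frobMod M Q p ∈ H := by
    intro p hp hS Q hQ
    obtain ⟨⟨hQp, hpQ⟩, hH⟩ := (mem_frobPrimes hp).mp hQ
    exact ⟨hfrob p hp (fun h => hS (Finset.mem_insert_of_mem h))
      (fun h => hS (h ▸ Finset.mem_insert_self _ _)) Q hQp hpQ _
      (isFrobeniusMod_frobMod hp hQp hpQ), hH⟩
  -- ideal counts in the fixed field through Frobenius counts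
  have hkey : ∀ (c : H) (p : Nat.Primes), (p : ℕ) ∉ S →
      (if ((p : ℕ) : ZMod q) = ((cyc c.1 : (ZMod q)ˣ) : ZMod q)
        then (idealCount E p : ℝ) else 0) =
      (orderOf c.1 : ℝ) * frobCount M c.1 p / orderOf g := by
    intro c p hS
    have hgood : (p : ℕ) ∉ exceptionalPrimes M := fun h => hS (Finset.mem_insert_of_mem h)
    split_ifs with hc
    · have hall : frobPrimes M p.2 (H : Set (M ≃ₐ[ℚ] M)) = frobPrimes M p.2 {c.1} := by
        ext Q
        refine ⟨fun hQ => ?_, fun hQ => ?_⟩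
        · obtain ⟨h1, h2⟩ := hmem p p.2 hS Q hQ
          exact (mem_frobPrimes p.2).mpr ⟨((mem_frobPrimes p.2).mp hQ).1,
            hinj _ h2 _ c.2 (Units.ext (h1.trans hc))⟩
        · obtain ⟨h1, h2⟩ := (mem_frobPrimes p.2).mp hQ
          exact (mem_frobPrimes p.2).mpr ⟨h1, by rw [h2]; exact c.2⟩
      have h := sum_orderOf_frobPrimes H p.2 hgood
      rw [hall, Finset.sum_congr rfl (g := fun _ => orderOf c.1) fun Q hQ => by
        rw [((mem_frobPrimes p.2).mp hQ).2], Finset.sum_const, smul_eq_mul, hcard] at h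
      rw [frobCount, eq_div_iff (Nat.cast_ne_zero.mpr (orderOf_pos g).ne')]
      exact_mod_cast (by rw [mul_comm] at h; rw [h, mul_comm] :
        idealCount E p * orderOf g = orderOf c.1 * (frobPrimes M p.2 {c.1}).card)
    · rw [frobCount, Finset.card_eq_zero.mpr, Nat.cast_zero, mul_zero, zero_div]
      refine Finset.eq_empty_of_forall_notMem fun Q hQ => hc ?_
      obtain ⟨⟨hQp, hpQ⟩, h2⟩ := (mem_frobPrimes p.2).mp hQ
      rw [← hfrob p p.2 hgood (fun h => hS (h ▸ Finset.mem_insert_self _ _)) Q hQp hpQ _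
        (isFrobeniusMod_frobMod p.2 hQp hpQ), show frobMod M Q p = c.1 from h2]
  have hfin : ∀ f f' : Nat.Primes → ℝ, (∀ p : Nat.Primes, (p : ℕ) ∉ S → f p = f' p) →
      {p | f p ≠ f' p}.Finite := fun f f' h => by
    refine (S.finite_toSet.preimage Nat.Primes.coe_nat_injective.injOn).subset fun p hp => ?_
    exact by_contra fun hd => hp (h p (fun hm => hd (Finset.mem_coe.mpr hm)))
  -- the class of `1`
  have hone : IsLogAsymp (fun p : Nat.Primes =>
      if ((p : ℕ) : ZMod q) = 1 then (idealCount E p : ℝ) else 0) (1 / orderOf τ) := by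
    have h := (isLogAsymp_divisionWeight g (one_dvd (orderOf g))).const_mul (1 / orderOf g : ℝ)
    rw [Nat.totient_one, Nat.cast_one, mul_one, ← hg] at h
    refine h.congr_finite (fun p => abs_weight_le E _ p) (hfin _ _ fun p hS => ?_)
    have h1 := hkey ⟨1, H.one_mem⟩ p hS
    simp only [map_one, Units.val_one] at h1
    rw [h1, divisionWeight, frobCount, orderOf_one,
      show ({σ | σ ∈ Subgroup.zpowers g ∧ orderOf σ = 1} : Set (M ≃ₐ[ℚ] M)) = {1} from
        Set.ext fun σ => ⟨fun h => orderOf_eq_one_iff.mp h.2,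
          fun h => ⟨h ▸ Subgroup.one_mem _, orderOf_eq_one_iff.mpr h⟩⟩]
    simp only [τ, hg, Nat.cast_one]
    ring
  -- every character nontrivial at `τ` is nontrivial at some split prime
  have hgen : ∀ ψ : DirichletCharacter ℂ q, ψ (τ : ZMod q) ≠ 1 → ∀ T : Finset ℕ,
      ∃ p : ℕ, p.Prime ∧ p ∉ T ∧ idealCount E p ≠ 0 ∧ ψ (p : ZMod q) ≠ 1 := by
    intro ψ hψ T
    obtain ⟨p, hp, hpT, hgood, Q, g', hQ, hpQ, hF, hz⟩ := exists_frobenius_generating g (insert q T)
    refine ⟨p, hp, fun h => hpT (Finset.mem_insert_of_mem h), fun h0 => ?_, fun h1 => hψ ?_⟩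
    · have hH : frobMod M Q p ∈ H := by
        have h2 := hF.mem_zpowers hp hgood hQ hpQ
          ((isFrobeniusMod_frobMod hp hQ hpQ).smul_eq hQ)
        rwa [hz] at h2
      have h := sum_orderOf_frobPrimes H hp hgood
      rw [show idealCount (IntermediateField.fixedField H) p = 0 from h0, mul_zero,
        Finset.sum_eq_zero_iff] at h
      exact (orderOf_pos _).ne' (h Q ((mem_frobPrimes hp).mpr ⟨⟨hQ, hpQ⟩, hH⟩))
    · obtain ⟨j, hj⟩ : ∃ j : ℕ, g' ^ j = g :=
        mem_powers_iff_mem_zpowers.mpr (hz ▸ Subgroup.mem_zpowers g)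
      rw [← hfrob p hp hgood (fun h => hpT (h ▸ Finset.mem_insert_self _ _)) Q hQ hpQ g' hF] at h1
      simp only [τ, ← hj, map_pow, Units.val_pow_eq_pow_val]
      rw [h1, one_pow]
  -- split primes lie in the powers of `τ`
  have hsub : ∀ p : ℕ, p.Prime → p ∉ S → idealCount E p ≠ 0 →
      ∃ k : ℕ, (p : ZMod q) = ((τ ^ k : (ZMod q)ˣ) : ZMod q) := by
    intro p hp hS h0
    have h := sum_orderOf_frobPrimes H hp (fun h => hS (Finset.mem_insert_of_mem h))
    have hne : Nat.card H * idealCount E p ≠ 0 := mul_ne_zero Nat.card_pos.ne' h0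
    rw [← h] at hne
    obtain ⟨Q, hQ, -⟩ := Finset.exists_ne_zero_of_sum_ne_zero hne
    obtain ⟨h1, h2⟩ := hmem p hp hS Q hQ
    obtain ⟨k, hk⟩ := mem_powers_iff_mem_zpowers.mpr h2
    exact ⟨k, by rw [← h1, ← hk]; simp [τ]⟩
  have hmain := isLogAsymp_class E τ S hgen hsub hone
  simp only [τ, hg] at hmain
  refine hmain.congr_finite (abs_frobCount_le g) (hfin _ _ fun p hS => ?_)
  rw [hkey ⟨g, Subgroup.mem_zpowers g⟩ p hS]
  field_simp [Nat.cast_ne_zero.mpr (orderOf_pos g).ne']

end Fermat.DS.Cheb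

end
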