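import Fermat.Agent.DS.Cheb.Class

/-!
# The series of a Dirichlet character composed with the norm, near `s = 1`

If the character is nontrivial at the norm of an ideal prime to the modulus the series has a limit
at `1⁺`.  If the modulus contains the small primes the series is the exponential of a continuous
function which differs from the sum over the primes by a bounded one.
-/

set_option autoImplicit false
set_option linter.unusedSectionVars false

noncomputable section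

open Filter Topology NumberField Ideal Asymptotics
open Fermat.CFT (idealCount)
open scoped Classical nonZeroDivisors

namespace Fermat.DS.Cheb

variable (K : Type*) [Field K] [NumberField K] {m : ℕ} [NeZero m] (χ : DirichletCharacter ℂ m)

/-- The Dirichlet series of the ideal counts of `K` twisted by `χ`. -/
def lser (s : ℝ) : ℂ := ∑' n : ℕ, (idealCount K n : ℂ) * nterm χ s n

/-- The part of the logarithm over the primes. -/
def pser (s : ℝ) : ℂ := ∑' p : Nat.Primes, (idealCount K p : ℂ) * nterm χ s p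

variable {K}

/-- The term is completely multiplicative. -/
lemma nterm_mul (s : ℝ) (a b : ℕ) : nterm χ s (a * b) = nterm χ s a * nterm χ s b := by
  rw [nterm, nterm, nterm, Nat.cast_mul, map_mul, Nat.cast_mul,
    Real.mul_rpow (Nat.cast_nonneg _) (Nat.cast_nonneg _)]
  push_cast
  ring

/-- The term has norm at most `a ^ (-s)`. -/
lemma norm_nterm_le (s : ℝ) (a : ℕ) : ‖nterm χ s a‖ ≤ (a : ℝ) ^ (-s) := by
  rw [nterm, norm_mul, Complex.norm_real, Real.norm_eq_abs,
    abs_of_nonneg (Real.rpow_nonneg (Nat.cast_nonneg _) _)]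
  exact mul_le_of_le_one_left (Real.rpow_nonneg (Nat.cast_nonneg _) _)
    (DirichletCharacter.norm_le_one χ _)

variable (K)

/-- Just to the right of `1` both series over the ideals converge absolutely. -/
lemma eventually_summable : ∀ᶠ s in 𝓝[>] (1 : ℝ),
    1 < s ∧ (Summable fun n : ℕ => (idealCount K n : ℝ) * (n : ℝ) ^ (-s)) ∧
      Summable fun a : (Ideal (𝓞 K))⁰ => (absNorm (a : Ideal (𝓞 K)) : ℝ) ^ (-s) := by
  filter_upwards [self_mem_nhdsWithin, (Fermat.CFT.tendsto_sub_one_mul_zetaReal K).eventually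
    (eventually_gt_nhds (dedekindZeta_residue_pos K))] with s hs1 hs
  have h1 : 1 < s := hs1
  have hn : Summable fun n : ℕ => (idealCount K n : ℝ) * (n : ℝ) ^ (-s) := by
    by_contra h
    rw [Fermat.CFT.zetaReal, tsum_eq_zero_of_not_summable h, mul_zero] at hs
    exact lt_irrefl _ hs
  refine ⟨h1, hn, Summable.comp_injective (i := fun a : (Ideal (𝓞 K))⁰ => (a : Ideal (𝓞 K)))
    (f := fun I : Ideal (𝓞 K) => (absNorm I : ℝ) ^ (-s)) ?_ Subtype.val_injective⟩
  refine (Equiv.sigmaFiberEquiv fun I : Ideal (𝓞 K) => absNorm I).summable_iff.mp ?_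
  have hnn : 0 ≤ (fun I : Ideal (𝓞 K) => (absNorm I : ℝ) ^ (-s)) ∘
      (Equiv.sigmaFiberEquiv fun I : Ideal (𝓞 K) => absNorm I) := fun _ =>
    Real.rpow_nonneg (Nat.cast_nonneg _) _
  refine (summable_sigma_of_nonneg hnn).mpr ⟨fun n => ?_, hn.congr fun n => ?_⟩
  · have : Finite {I : Ideal (𝓞 K) // absNorm I = n} :=
      (Ideal.finite_setOfPred_absNorm_eq n).to_subtype
    exact .of_finite
  · rw [idealCount, ← nsmul_eq_mul, ← tsum_const]
    exact tsum_congr fun I => by simp [I.2]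

/-- The sum over the ideals is the series over the norms. -/
lemma tsum_ideal_eq {s : ℝ} (hs : 0 < s)
    (hn : Summable fun a : (Ideal (𝓞 K))⁰ => (absNorm (a : Ideal (𝓞 K)) : ℝ) ^ (-s)) :
    ∑' a : (Ideal (𝓞 K))⁰, nterm χ s (absNorm (a : Ideal (𝓞 K))) = lser K χ s := by
  set g : Ideal (𝓞 K) → ℂ := fun I => nterm χ s (absNorm I)
  have h0 : ∀ I, I ∉ Set.range (fun a : (Ideal (𝓞 K))⁰ => (a : Ideal (𝓞 K))) → g I = 0 := by
    intro I hI
    have : I = ⊥ := by_contra fun h => hI ⟨⟨I, mem_nonZeroDivisors_of_ne_zero h⟩, rfl⟩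
    simp [g, this, nterm, Real.zero_rpow (neg_ne_zero.mpr hs.ne')]
  have hg : Summable g := (Subtype.val_injective.summable_iff h0).mp
    (Summable.of_norm_bounded hn fun a => norm_nterm_le χ s _)
  have key : ∑' a : (Ideal (𝓞 K))⁰, g a = ∑' I, g I :=
    Subtype.val_injective.tsum_eq fun I hI => by_contra fun h => hI (h0 I h)
  have hσ : Summable fun p : Σ n : ℕ, {I : Ideal (𝓞 K) // absNorm I = n} =>
      g ((Equiv.sigmaFiberEquiv fun I : Ideal (𝓞 K) => absNorm I) p) :=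
    (Equiv.sigmaFiberEquiv _).summable_iff.mpr hg
  rw [key, lser, ← (Equiv.sigmaFiberEquiv fun I : Ideal (𝓞 K) => absNorm I).tsum_eq g,
    hσ.tsum_sigma]
  refine tsum_congr fun n => ?_
  rw [idealCount, ← nsmul_eq_mul, ← tsum_const]
  exact tsum_congr fun I => by simp [g, I.2]

/-- **The limit at `1⁺`.** The series of a character nontrivial at the norm of an ideal prime to `m`
has a limit at `1⁺`. -/
theorem exists_tendsto_lser (P : (Ideal (𝓞 K))⁰) (hP : (absNorm (P : Ideal (𝓞 K))).Coprime m)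
    (hχ : χ (absNorm (P : Ideal (𝓞 K)) : ℕ) ≠ 1) :
    ∃ ℓ, Tendsto (lser K χ) (𝓝[>] 1) (𝓝 ℓ) := by
  set NP := absNorm (P : Ideal (𝓞 K))
  have hev := eventually_summable K
  choose ℓ hℓ using fun C : ClassGroup (𝓞 K) =>
    exists_tendsto_class C χ P hP (hev.mono fun s h => h.2.2)
  -- the class sums converge
  have hT := tendsto_finsetSum (Finset.univ : Finset (ClassGroup (𝓞 K))) fun C _ => hℓ C
  have hden : Tendsto (fun s => nterm χ s NP - (NP : ℂ)⁻¹) (𝓝[>] 1)
      (𝓝 (χ (NP : ℕ) * (NP : ℂ)⁻¹ - (NP : ℂ)⁻¹)) := by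
    refine (Tendsto.const_mul _ ?_).sub_const _
    have hc : Continuous fun s : ℝ => (((NP : ℝ) ^ (-s) : ℝ) : ℂ) :=
      Complex.continuous_ofReal.comp ((Real.continuous_const_rpow (Nat.cast_ne_zero.mpr
        (absNorm_ne_zero_of_nonZeroDivisors P))).comp continuous_neg)
    simpa [Real.rpow_neg_one] using (hc.tendsto 1).mono_left (nhdsWithin_le_nhds (s := Set.Ioi 1))
  have hne : χ (NP : ℕ) * (NP : ℂ)⁻¹ - (NP : ℂ)⁻¹ ≠ 0 := by
    rw [← sub_one_mul]
    exact mul_ne_zero (sub_ne_zero.mpr hχ)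
      (inv_ne_zero (Nat.cast_ne_zero.mpr (absNorm_ne_zero_of_nonZeroDivisors P)))
  -- divide the sum over classes by the Euler factor of `P`
  refine ⟨_, (hT.div hden hne).congr' ?_⟩
  filter_upwards [hev, hden.eventually_ne hne] with s ⟨hs1, _, hs⟩ hne'
  rw [Pi.div_apply, div_eq_iff hne']
  set g : (Ideal (𝓞 K))⁰ → ℂ := fun a => nterm χ s (absNorm (a : Ideal (𝓞 K)))
  have hg : Summable g := Summable.of_norm_bounded hs fun a => norm_nterm_le χ s _
  set F : (Ideal (𝓞 K))⁰ → ℂ := fun a => if (P : Ideal (𝓞 K)) ∣ a then g a else 0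
  have hF : Summable F := Summable.of_norm_bounded hg.norm fun a => by
    simp only [F]; split_ifs <;> simp
  -- the sum over classes is one sum over ideals
  have hsplit : ∑ C : ClassGroup (𝓞 K), ∑' a : {a : (Ideal (𝓞 K))⁰ // ClassGroup.mk0 a = C},
      ((if (P : Ideal (𝓞 K)) ∣ a.1 then (1 : ℂ) else 0) - (NP : ℂ)⁻¹) * g a.1 =
      ∑' a, (F a - (NP : ℂ)⁻¹ * g a) := by
    have hsum : Summable fun a => F a - (NP : ℂ)⁻¹ * g a := hF.sub (hg.mul_left _)
    have hσ : Summable fun p : Σ C : ClassGroup (𝓞 K),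
        {a : (Ideal (𝓞 K))⁰ // ClassGroup.mk0 a = C} =>
          F ((Equiv.sigmaFiberEquiv ClassGroup.mk0) p) -
            (NP : ℂ)⁻¹ * g ((Equiv.sigmaFiberEquiv ClassGroup.mk0) p) :=
      ((Equiv.sigmaFiberEquiv ClassGroup.mk0).summable_iff
        (f := fun a => F a - (NP : ℂ)⁻¹ * g a)).mpr hsum
    rw [← (Equiv.sigmaFiberEquiv ClassGroup.mk0).tsum_eq (fun a => F a - (NP : ℂ)⁻¹ * g a),
      hσ.tsum_sigma, tsum_fintype]
    refine Finset.sum_congr rfl fun C _ => tsum_congr fun a => ?_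
    simp only [F, Equiv.sigmaFiberEquiv_apply]
    split_ifs <;> ring
  -- the part divisible by `P`
  have hPsum : ∑' a, F a = nterm χ s NP * ∑' a, g a := by
    have hinj : Function.Injective fun b : (Ideal (𝓞 K))⁰ => P * b := fun x y h =>
      Subtype.ext (mul_left_cancel₀ (nonZeroDivisors.coe_ne_zero P) (congrArg Subtype.val h))
    rw [← tsum_mul_left, ← hinj.tsum_eq (f := F) fun a ha => ?_]
    · refine tsum_congr fun b => ?_
      simp only [F, g, Submonoid.coe_mul, dvd_mul_right, if_true, map_mul, nterm_mul]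
      rfl
    · obtain ⟨b, hb⟩ : (P : Ideal (𝓞 K)) ∣ a := by_contra fun h => ha (if_neg h)
      have hb0 : b ≠ ⊥ := fun h => nonZeroDivisors.coe_ne_zero a (by simp [hb, h])
      exact ⟨⟨b, mem_nonZeroDivisors_of_ne_zero hb0⟩, Subtype.ext hb.symm⟩
  rw [hsplit, Summable.tsum_sub hF (hg.mul_left _), hPsum, tsum_mul_left,
    tsum_ideal_eq K χ (by linarith) hs]
  ring

/-- The local factor is near `1 + a₁ y`. -/
lemma exists_factor_bound : ∃ C : ℝ, 0 ≤ C ∧ ∀ (p : Nat.Primes) (y : ℂ),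
    ‖y‖ ≤ (p : ℝ)⁻¹ →
    (Summable fun e : ℕ => (idealCount K ((p : ℕ) ^ e) : ℂ) * y ^ e) ∧
    ‖(∑' e : ℕ, (idealCount K ((p : ℕ) ^ e) : ℂ) * y ^ e) - 1 - (idealCount K p : ℂ) * y‖ ≤
      C * ‖y‖ ^ 2 := by
  set d := Module.finrank ℚ K
  have hsumC : Summable fun e : ℕ => ((e + 3 : ℕ) : ℝ) ^ d * (1 / 2 : ℝ) ^ e := by
    have h := (summable_nat_add_iff 3).mpr
      (summable_pow_mul_geometric_of_norm_lt_one d (r := (1 / 2 : ℝ)) (by norm_num))
    refine (h.mul_left (8 : ℝ)).congr fun e => ?_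
    rw [pow_add]; push_cast; ring
  refine ⟨∑' e : ℕ, ((e + 3 : ℕ) : ℝ) ^ d * (1 / 2 : ℝ) ^ e, tsum_nonneg fun e => by positivity,
    fun p y hy => ?_⟩
  have hy2 : ‖y‖ ≤ 1 / 2 := hy.trans (by
    rw [one_div]; exact inv_anti₀ two_pos (by exact_mod_cast p.2.two_le))
  set a : ℕ → ℂ := fun e => (idealCount K ((p : ℕ) ^ e) : ℂ) * y ^ e
  have hb : ∀ e, ‖a (e + 2)‖ ≤ ‖y‖ ^ 2 * (((e + 3 : ℕ) : ℝ) ^ d * (1 / 2 : ℝ) ^ e) := fun e => by
    have h1 : (idealCount K ((p : ℕ) ^ (e + 2)) : ℝ) ≤ ((e + 3 : ℕ) : ℝ) ^ d := by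
      rw [← Nat.cast_pow]
      exact Nat.cast_le.mpr (Fermat.CFT.idealCount_prime_pow_le K p.2 (e + 2))
    rw [norm_mul, Complex.norm_natCast, norm_pow]
    calc _ ≤ ((e + 3 : ℕ) : ℝ) ^ d * ((1 / 2) ^ e * ‖y‖ ^ 2) := by
          refine mul_le_mul h1 ?_ (by positivity) (by positivity)
          rw [pow_add]
          exact mul_le_mul_of_nonneg_right (pow_le_pow_left₀ (norm_nonneg _) hy2 e) (by positivity)
      _ = _ := by ring
  have hsR : Summable fun e => a (e + 2) := Summable.of_norm_bounded (hsumC.mul_left _) hb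
  have hs : Summable a := (summable_nat_add_iff 2).mp hsR
  refine ⟨hs, ?_⟩
  change ‖(∑' e, a e) - 1 - _‖ ≤ _
  rw [← hs.sum_add_tsum_nat_add 2,
    show (∑ e ∈ Finset.range 2, a e) + (∑' e, a (e + 2)) - 1 - (idealCount K p : ℂ) * y =
      ∑' e, a (e + 2) by simp [Finset.sum_range_succ, a, Fermat.CFT.idealCount_one]; ring,
    ← tsum_mul_right]
  refine (norm_tsum_le_tsum_norm hsR.norm).trans (hsR.norm.tsum_le_tsum (fun e => ?_)
    (hsumC.mul_right _))
  rw [mul_comm]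
  exact hb e

/-- The local factor of the series at a prime. -/
def locFactor (p : Nat.Primes) (s : ℝ) : ℂ :=
  ∑' e : ℕ, (idealCount K ((p : ℕ) ^ e) : ℂ) * nterm χ s p ^ e

/-- For `s > 1` the term at a prime `p` is bounded by `p ^ (-s)` and by `1 / p`. -/
lemma norm_nterm_prime_le {s : ℝ} (hs : 1 < s) (p : Nat.Primes) :
    ‖nterm χ s p‖ ≤ (p : ℝ) ^ (-s) ∧ ‖nterm χ s p‖ ≤ (p : ℝ)⁻¹ := by
  refine ⟨norm_nterm_le χ s p, (norm_nterm_le χ s p).trans ?_⟩
  rw [← Real.rpow_neg_one]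
  exact Real.rpow_le_rpow_of_exponent_le (by exact_mod_cast p.2.one_le) (by linarith)

variable {C : ℝ}

/-- The local factor differs from `1` by a multiple of the term at the prime. -/
lemma norm_locFactor_sub_one_le (hC0 : 0 ≤ C)
    (hC : ∀ (p : Nat.Primes) (y : ℂ), ‖y‖ ≤ (p : ℝ)⁻¹ →
      ‖(∑' e : ℕ, (idealCount K ((p : ℕ) ^ e) : ℂ) * y ^ e) - 1 - (idealCount K p : ℂ) * y‖ ≤
        C * ‖y‖ ^ 2)
    {s : ℝ} (hs : 1 < s) (p : Nat.Primes) :
    ‖locFactor K χ p s - 1‖ ≤ ((Module.finrank ℚ K : ℝ) + C) * ‖nterm χ s p‖ := by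
  obtain ⟨h1, h2⟩ := norm_nterm_prime_le χ hs p
  set z := nterm χ s (p : ℕ)
  have ha : ‖(idealCount K p : ℂ) * z‖ ≤ Module.finrank ℚ K * ‖z‖ := by
    rw [norm_mul, Complex.norm_natCast]
    exact mul_le_mul_of_nonneg_right
      (Nat.cast_le.mpr (Fermat.CFT.idealCount_prime_le K p.2)) (norm_nonneg _)
  have hz1 : ‖z‖ ≤ 1 := h2.trans (inv_le_one_of_one_le₀ (by exact_mod_cast p.2.one_le))
  have hq : C * ‖z‖ ^ 2 ≤ C * ‖z‖ :=
    mul_le_mul_of_nonneg_left (by nlinarith [norm_nonneg z]) hC0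
  calc ‖locFactor K χ p s - 1‖ ≤ ‖(idealCount K p : ℂ) * z‖ +
        ‖locFactor K χ p s - 1 - (idealCount K p : ℂ) * z‖ := norm_le_norm_add_norm_sub' _ _
    _ ≤ Module.finrank ℚ K * ‖z‖ + C * ‖z‖ := add_le_add ha ((hC p z h2).trans hq)
    _ = _ := (add_mul _ _ _).symm

/-- The local factor is within `1 / 2` of `1` if the modulus contains the small primes. -/
lemma norm_locFactor_sub_one_le_half {D : ℝ} (hD : 0 ≤ D) {p₀ : ℕ} (hp₀ : 2 * D ≤ p₀)
    (hsmall : ∀ p : ℕ, p.Prime → p ≤ p₀ → p ∣ m) {s : ℝ} (hs : 1 < s) (p : Nat.Primes)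
    (htD : ‖locFactor K χ p s - 1‖ ≤ D * ‖nterm χ s p‖) : ‖locFactor K χ p s - 1‖ ≤ 1 / 2 := by
  rcases le_or_gt (p : ℕ) p₀ with h | h
  · have hy0 : nterm χ s p = 0 := by
      have : χ ((p : ℕ) : ZMod m) = 0 := MulChar.map_nonunit χ fun hu =>
        p.2.not_dvd_one (by
          rw [← (ZMod.isUnit_iff_coprime _ _).mp hu]
          exact Nat.dvd_gcd dvd_rfl (hsmall p p.2 h))
      simp [nterm, this]
    rw [hy0, norm_zero, mul_zero] at htD
    linarith
  · refine htD.trans ?_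
    have hp : 2 * D ≤ (p : ℝ) := hp₀.trans (Nat.cast_le.mpr h.le)
    calc D * ‖nterm χ s p‖ ≤ D * (p : ℝ)⁻¹ :=
          mul_le_mul_of_nonneg_left (norm_nterm_prime_le χ hs p).2 hD
      _ ≤ 1 / 2 := by
        rw [mul_inv_le_iff₀ (by exact_mod_cast p.2.pos)]; linarith

/-- The logarithm of the local factor is the linear term up to `O(p⁻²)`. -/
lemma norm_log_locFactor_sub_le (hC0 : 0 ≤ C)
    (hC : ∀ (p : Nat.Primes) (y : ℂ), ‖y‖ ≤ (p : ℝ)⁻¹ →
      ‖(∑' e : ℕ, (idealCount K ((p : ℕ) ^ e) : ℂ) * y ^ e) - 1 - (idealCount K p : ℂ) * y‖ ≤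
        C * ‖y‖ ^ 2)
    {D : ℝ} (hD : 0 ≤ D) {s : ℝ} (hs : 1 < s) (p : Nat.Primes)
    (htD : ‖locFactor K χ p s - 1‖ ≤ D * ‖nterm χ s p‖)
    (hhalf : ‖locFactor K χ p s - 1‖ ≤ 1 / 2) :
    ‖Complex.log (locFactor K χ p s) - (idealCount K p : ℂ) * nterm χ s p‖ ≤
      (D ^ 2 + C) * ((p : ℝ)⁻¹) ^ 2 := by
  obtain ⟨h1, h2⟩ := norm_nterm_prime_le χ hs p
  set F := locFactor K χ p s
  set z := nterm χ s (p : ℕ)
  have hlog := Complex.norm_log_one_add_sub_self_le (z := F - 1) (by linarith)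
  rw [add_sub_cancel] at hlog
  have hsq : ‖F - 1‖ ^ 2 * (1 - ‖F - 1‖)⁻¹ / 2 ≤ ‖F - 1‖ ^ 2 := by
    have : (1 - ‖F - 1‖)⁻¹ ≤ 2 := by
      rw [inv_le_comm₀ (by linarith) two_pos]; linarith
    nlinarith [sq_nonneg ‖F - 1‖]
  have e1 : ‖F - 1‖ ^ 2 ≤ D ^ 2 * ((p : ℝ)⁻¹) ^ 2 := by
    rw [← mul_pow]
    exact pow_le_pow_left₀ (norm_nonneg _) (htD.trans (mul_le_mul_of_nonneg_left h2 hD)) 2
  have e2 : C * ‖z‖ ^ 2 ≤ C * ((p : ℝ)⁻¹) ^ 2 :=
    mul_le_mul_of_nonneg_left (pow_le_pow_left₀ (norm_nonneg _) h2 2) hC0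
  calc _ ≤ ‖Complex.log F - (F - 1)‖ + ‖F - 1 - (idealCount K p : ℂ) * z‖ :=
        norm_sub_le_norm_sub_add_norm_sub _ _ _
    _ ≤ D ^ 2 * ((p : ℝ)⁻¹) ^ 2 + C * ((p : ℝ)⁻¹) ^ 2 :=
      add_le_add ((hlog.trans hsq).trans e1) ((hC p z h2).trans e2)
    _ = _ := (add_mul _ _ _).symm

/-- A multiple of the sum of `p⁻²` over the primes converges. -/
lemma summable_mul_prime_inv_sq (E : ℝ) :
    Summable fun p : Nat.Primes => E * ((p : ℝ)⁻¹) ^ 2 := by
  refine ((Nat.Primes.summable_rpow.mpr (by norm_num : (-2 : ℝ) < -1)).mul_left E).congr fun p => ?_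
  rw [Real.rpow_neg (Nat.cast_nonneg _), Real.rpow_two, inv_pow]

/-- The sum over the primes converges for `s > 1`. -/
lemma summable_idealCount_mul_nterm {s : ℝ} (hs : 1 < s) :
    Summable fun p : Nat.Primes => (idealCount K p : ℂ) * nterm χ s p :=
  Summable.of_norm_bounded ((Nat.Primes.summable_rpow.mpr (by linarith : -s < -1)).mul_left
    (Module.finrank ℚ K : ℝ)) fun p => by
    rw [norm_mul, Complex.norm_natCast]
    exact mul_le_mul (Nat.cast_le.mpr (Fermat.CFT.idealCount_prime_le K p.2))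
      (norm_nterm_prime_le χ hs p).1 (norm_nonneg _) (Nat.cast_nonneg _)

/-- The local factor is continuous for `s > 1`. -/
lemma continuousOn_locFactor (p : Nat.Primes) :
    ContinuousOn (locFactor K χ p) (Set.Ioi 1) := by
  set d := Module.finrank ℚ K
  have hgeo : Summable fun e : ℕ => ((e + 1 : ℕ) : ℝ) ^ d * (1 / 2 : ℝ) ^ e := by
    have h := (summable_nat_add_iff 1).mpr
      (summable_pow_mul_geometric_of_norm_lt_one d (r := (1 / 2 : ℝ)) (by norm_num))
    refine (h.mul_left (2 : ℝ)).congr fun e => ?_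
    rw [pow_add]; push_cast; ring
  refine continuousOn_tsum (fun e => ?_) hgeo fun e s hs => ?_
  · refine (continuous_const.mul ((continuous_const.mul ?_).pow e)).continuousOn
    exact Complex.continuous_ofReal.comp ((Real.continuous_const_rpow
      (Nat.cast_ne_zero.mpr p.2.ne_zero)).comp continuous_neg)
  · rw [norm_mul, norm_pow, Complex.norm_natCast]
    refine mul_le_mul ?_ (pow_le_pow_left₀ (norm_nonneg _)
      ((norm_nterm_prime_le χ hs p).2.trans ?_) e) (by positivity) (by positivity)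
    · rw [← Nat.cast_pow]
      exact Nat.cast_le.mpr (Fermat.CFT.idealCount_prime_pow_le K p.2 e)
    · rw [one_div]; exact inv_anti₀ two_pos (by exact_mod_cast p.2.two_le)

/-- The sum of the logarithms of the local factors is continuous for `s > 1`. -/
lemma continuousOn_tsum_log_locFactor {E : ℝ}
    (hhalf : ∀ s, 1 < s → ∀ p, ‖locFactor K χ p s - 1‖ ≤ 1 / 2)
    (hlog : ∀ s, 1 < s → ∀ p : Nat.Primes,
      ‖Complex.log (locFactor K χ p s) - (idealCount K p : ℂ) * nterm χ s p‖ ≤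
        E * ((p : ℝ)⁻¹) ^ 2) :
    ContinuousOn (fun s => ∑' p, Complex.log (locFactor K χ p s)) (Set.Ioi 1) := by
  intro s₀ (hs₀ : 1 < s₀)
  set δ := (s₀ - 1) / 2
  have hδ : 1 < 1 + δ := by simp only [δ]; linarith
  have hsub : Set.Ioi (1 + δ) ⊆ Set.Ioi (1 : ℝ) := Set.Ioi_subset_Ioi hδ.le
  refine ContinuousAt.continuousWithinAt ?_
  refine ContinuousOn.continuousAt ?_ (Ioi_mem_nhds (show 1 + δ < s₀ by simp only [δ]; linarith))
  refine continuousOn_tsum (fun p => ?_)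
    (((Nat.Primes.summable_rpow.mpr (by linarith : -(1 + δ) < -1)).mul_left
      (Module.finrank ℚ K : ℝ)).add (summable_mul_prime_inv_sq E)) fun p s hs => ?_
  · refine ((continuousOn_locFactor K χ p).mono hsub).clog fun s hs => ?_
    have := Complex.mem_slitPlane_of_norm_lt_one (z := locFactor K χ p s - 1)
      ((hhalf s (hsub hs) p).trans_lt (by norm_num))
    simpa using this
  · refine (norm_le_norm_add_norm_sub' _ ((idealCount K p : ℂ) * nterm χ s p)).trans
      (add_le_add ?_ (hlog s (hsub hs) p))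
    rw [norm_mul, Complex.norm_natCast]
    refine mul_le_mul (Nat.cast_le.mpr (Fermat.CFT.idealCount_prime_le K p.2))
      ((norm_nterm_prime_le χ (hsub hs) p).1.trans ?_) (norm_nonneg _) (Nat.cast_nonneg _)
    exact Real.rpow_le_rpow_of_exponent_le (by exact_mod_cast p.2.one_le)
      (neg_le_neg (le_of_lt (Set.mem_Ioi.mp hs)))

/-- The Euler product, in exponential form. -/
lemma exp_tsum_log_locFactor {s : ℝ} (hs : 1 < s)
    (hn : Summable fun n : ℕ => (idealCount K n : ℝ) * (n : ℝ) ^ (-s))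
    (hne : ∀ p, locFactor K χ p s ≠ 0)
    (hlogs : Summable fun p => Complex.log (locFactor K χ p s)) :
    Complex.exp (∑' p, Complex.log (locFactor K χ p s)) = lser K χ s := by
  set f : ℕ → ℂ := fun n => (idealCount K n : ℂ) * nterm χ s n
  have hf0 : f 0 = 0 := by simp [f, nterm, Real.zero_rpow (show -s ≠ 0 by linarith)]
  have hf1 : f 1 = 1 := by simp [f, nterm, Fermat.CFT.idealCount_one]
  have hnorm : Summable fun n => ‖f n‖ := by
    refine hn.of_nonneg_of_le (fun n => norm_nonneg _) fun n => ?_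
    simp only [f, norm_mul, Complex.norm_natCast]
    exact mul_le_mul_of_nonneg_left (norm_nterm_le χ s n) (Nat.cast_nonneg _)
  have hprod : HasProd (fun p : Nat.Primes => ∑' e, f ((p : ℕ) ^ e)) (∑' n, f n) := by
    refine EulerProduct.eulerProduct_hasProd hf1 (fun {a b} hab => ?_) hnorm hf0
    rcases eq_or_ne a 0 with rfl | ha
    · simp [hf0]
    rcases eq_or_ne b 0 with rfl | hb
    · simp [hf0]
    simp only [f, Fermat.CFT.idealCount_mul ha hb hab, nterm_mul, Nat.cast_mul]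
    ring
  have hFe : ∀ p : Nat.Primes,
      (∑' e, f ((p : ℕ) ^ e)) = Complex.exp (Complex.log (locFactor K χ p s)) := by
    intro p
    have hpow : ∀ e : ℕ, nterm χ s ((p : ℕ) ^ e) = nterm χ s p ^ e := fun e => by
      induction e with
      | zero => simp [nterm]
      | succ e ih => rw [pow_succ, nterm_mul, ih, pow_succ]
    rw [Complex.exp_log (hne p), locFactor]
    exact tsum_congr fun e => by simp only [f, hpow]
  simp only [hFe] at hprod
  exact hlogs.hasSum.cexp.unique hprod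

/-- **The logarithm:** a continuous logarithm of the L-series within `O(1)` of the series over
the primes. -/
theorem exists_log : ∃ p₀ : ℕ, ∀ (m : ℕ) [NeZero m] (χ : DirichletCharacter ℂ m),
    (∀ p : ℕ, p.Prime → p ≤ p₀ → p ∣ m) →
    ∃ Λ : ℝ → ℂ, ContinuousOn Λ (Set.Ioi 1) ∧
      (∃ B, ∀ s, 1 < s → ‖Λ s - pser K χ s‖ ≤ B) ∧
      ∀ᶠ s in 𝓝[>] (1 : ℝ), Complex.exp (Λ s) = lser K χ s := by
  obtain ⟨C, hC0, hC'⟩ := exists_factor_bound K
  set D : ℝ := Module.finrank ℚ K + C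
  have hD : 0 ≤ D := by positivity
  obtain ⟨p₀, hp₀⟩ := exists_nat_ge (2 * D)
  refine ⟨p₀, fun m _ χ hsmall => ?_⟩
  have hC := fun p y hy => (hC' p y hy).2
  have htD : ∀ s, 1 < s → ∀ p, ‖locFactor K χ p s - 1‖ ≤ D * ‖nterm χ s p‖ := fun s hs p =>
    norm_locFactor_sub_one_le K χ hC0 hC hs p
  have hhalf : ∀ s, 1 < s → ∀ p, ‖locFactor K χ p s - 1‖ ≤ 1 / 2 := fun s hs p =>
    norm_locFactor_sub_one_le_half K χ hD hp₀ hsmall hs p (htD s hs p)
  have hlog : ∀ s, 1 < s → ∀ p : Nat.Primes,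
      ‖Complex.log (locFactor K χ p s) - (idealCount K p : ℂ) * nterm χ s p‖ ≤
        (D ^ 2 + C) * ((p : ℝ)⁻¹) ^ 2 := fun s hs p =>
    norm_log_locFactor_sub_le K χ hC0 hC hD hs p (htD s hs p) (hhalf s hs p)
  have hlogs : ∀ s, 1 < s → Summable fun p => Complex.log (locFactor K χ p s) := fun s hs => by
    simpa using (Summable.of_norm_bounded (summable_mul_prime_inv_sq _)
      fun p => hlog s hs p).add (summable_idealCount_mul_nterm K χ hs)
  refine ⟨fun s => ∑' p, Complex.log (locFactor K χ p s),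
    continuousOn_tsum_log_locFactor K χ hhalf hlog,
    ⟨∑' p : Nat.Primes, (D ^ 2 + C) * ((p : ℝ)⁻¹) ^ 2, fun s hs => ?_⟩, ?_⟩
  · rw [pser, ← Summable.tsum_sub (hlogs s hs) (summable_idealCount_mul_nterm K χ hs)]
    exact tsum_of_norm_bounded (summable_mul_prime_inv_sq _).hasSum fun p => hlog s hs p
  · filter_upwards [eventually_summable K] with s ⟨hs, hn, _⟩
    refine exp_tsum_log_locFactor K χ hs hn (fun p h => ?_) (hlogs s hs)
    have := hhalf s hs p
    rw [h] at this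
    norm_num at this

end Fermat.DS.Cheb

end
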