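import Fermat.Agent.DS.Defs
import Fermat.Agent.DS.Cheb.Cyclo
import Fermat.Agent.GR.RT.Inertia

/-!
# Chebotarev's density theorem, logarithmic form

The extension is crossed with cyclotomic extensions of prime conductor.

`chebStatement`, used through `Main/Density`.
-/

set_option autoImplicit false

noncomputable section

open Filter Topology NumberField Asymptotics
open Fermat.CFT
open scoped Classical Pointwise

namespace Fermat.DS

local notation "ℚbar" => AlgebraicClosure ℚ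
local notation "Γℚ" => (AlgebraicClosure ℚ ≃ₐ[ℚ] AlgebraicClosure ℚ)

namespace Cheb

/-- In a cyclic group of order divisible by `D ^ (k + 1)` at most `D |G| / 2 ^ k` elements have
order not divisible by `D`. -/
lemma card_not_dvd_orderOf_le {G : Type*} [Group G] [Finite G] [IsCyclic G] (D k : ℕ)
    (hD : D ≠ 0) (hn : D ^ (k + 1) ∣ Nat.card G) :
    (Nat.card {x : G // ¬ D ∣ orderOf x} : ℝ) ≤ D * Nat.card G / 2 ^ k := by
  have : Fintype G := Fintype.ofFinite G
  set n := Fintype.card G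
  rw [Nat.card_eq_fintype_card] at hn
  have hn0 : 0 < n := Fintype.card_pos
  have hrk : ∀ r ∈ D.primeFactors, r ^ k ∣ n := fun r hr =>
    ((pow_dvd_pow r k.le_succ).trans
      (pow_dvd_pow_of_dvd (Nat.dvd_of_mem_primeFactors hr) _)).trans hn
  -- an element of order not divisible by `D` is killed by some `n / r ^ k`
  have hsub : (Finset.univ.filter fun x : G => ¬ D ∣ orderOf x) ⊆
      D.primeFactors.biUnion fun r => Finset.univ.filter fun x : G => x ^ (n / r ^ k) = 1 := by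
    intro x hx
    obtain ⟨r, e, hr, hrD, hro⟩ : ∃ r e : ℕ, r.Prime ∧ r ^ e ∣ D ∧ ¬ r ^ e ∣ orderOf x := by
      have h := (Finset.mem_filter.mp hx).2
      rw [Nat.dvd_iff_prime_pow_dvd_dvd] at h
      push Not at h
      exact h
    have he : e ≠ 0 := fun h => hro (by simp [h])
    have hrmem : r ∈ D.primeFactors :=
      Nat.mem_primeFactors.mpr ⟨hr, (dvd_pow_self r he).trans hrD, hD⟩
    refine Finset.mem_biUnion.mpr ⟨r, hrmem, Finset.mem_filter.mpr
      ⟨Finset.mem_univ _, orderOf_dvd_iff_pow_eq_one.mp ?_⟩⟩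
    obtain ⟨w, hw⟩ := hrk r hrmem
    rw [hw, Nat.mul_div_cancel_left _ (pow_pos hr.pos k)]
    have hrw : r ^ e ∣ w := by
      have h1 : r ^ k * r ^ e ∣ r ^ k * w := by
        rw [← hw]
        refine Dvd.dvd.trans ?_ hn
        rw [pow_succ]
        exact mul_dvd_mul (pow_dvd_pow_of_dvd (Nat.dvd_of_mem_primeFactors hrmem) k) hrD
      exact (Nat.mul_dvd_mul_iff_left (pow_pos hr.pos k)).mp h1
    obtain ⟨a, o', ho', hoe⟩ :=
      Nat.exists_eq_pow_mul_and_not_dvd (orderOf_pos x).ne' r hr.ne_one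
    have hae : a ≤ e := by
      by_contra h
      exact hro (hoe ▸ Dvd.dvd.mul_right (pow_dvd_pow r (by omega)) o')
    have hcop : Nat.Coprime r o' := hr.coprime_iff_not_dvd.mpr ho'
    have h2 : o' ∣ w := (Nat.Coprime.pow_right k hcop.symm).dvd_of_dvd_mul_left
      (hw ▸ (hoe ▸ dvd_mul_left o' (r ^ a) : o' ∣ orderOf x).trans (orderOf_dvd_card (x := x)))
    rw [hoe]
    exact (Nat.Coprime.pow_left a hcop).mul_dvd_of_dvd_of_dvd ((pow_dvd_pow r hae).trans hrw) h2
  rw [Nat.card_eq_fintype_card, Fintype.card_subtype, Nat.card_eq_fintype_card]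
  refine (Nat.cast_le.mpr ((Finset.card_le_card hsub).trans Finset.card_biUnion_le)).trans ?_
  push_cast
  -- count these elements for each prime `r`
  calc ∑ r ∈ D.primeFactors, ((Finset.univ.filter fun x : G => x ^ (n / r ^ k) = 1).card : ℝ)
      ≤ ∑ _r ∈ D.primeFactors, (n : ℝ) / 2 ^ k := Finset.sum_le_sum fun r hr => by
        have hrp := Nat.prime_of_mem_primeFactors hr
        refine (Nat.cast_le.mpr (IsCyclic.card_pow_eq_one_le
          (Nat.div_pos (Nat.le_of_dvd hn0 (hrk r hr)) (pow_pos hrp.pos k)))).trans ?_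
        refine Nat.cast_div_le.trans (div_le_div_of_nonneg_left (Nat.cast_nonneg _)
          (by positivity) ?_)
        exact_mod_cast Nat.pow_le_pow_left hrp.two_le k
    _ = (D.primeFactors.card : ℝ) * ((n : ℝ) / 2 ^ k) := by rw [Finset.sum_const, nsmul_eq_mul]
    _ ≤ (D : ℝ) * ((n : ℝ) / 2 ^ k) := by
        refine mul_le_mul_of_nonneg_right (Nat.cast_le.mpr ?_) (by positivity)
        calc D.primeFactors.card ≤ (Finset.Icc 1 D).card := Finset.card_le_card fun r hr =>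
              Finset.mem_Icc.mpr ⟨(Nat.prime_of_mem_primeFactors hr).pos,
                Nat.le_of_mem_primeFactors hr⟩
          _ = D := by simp
    _ = _ := (mul_div_assoc _ _ _).symm

/-- In a cyclic group of order divisible by `D ^ (k + 1)` all but the fraction `D / 2 ^ k` of the
elements have order divisible by `D`. -/
lemma le_card_dvd_orderOf {G : Type*} [Group G] [Finite G] [IsCyclic G] (D k : ℕ)
    (hD : D ≠ 0) (hn : D ^ (k + 1) ∣ Nat.card G) :
    ((1 : ℝ) - (D : ℝ) / 2 ^ k) * (Nat.card G : ℝ) ≤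
      (Nat.card {x : G // D ∣ orderOf x} : ℝ) := by
  have h := card_not_dvd_orderOf_le D k hD hn
  have he : Nat.card {x : G // D ∣ orderOf x} + Nat.card {x : G // ¬ D ∣ orderOf x} =
      Nat.card G := by
    rw [← Nat.card_sum]
    exact Nat.card_congr (Equiv.sumCompl _)
  have he' : (Nat.card {x : G // D ∣ orderOf x} : ℝ) +
      Nat.card {x : G // ¬ D ∣ orderOf x} = Nat.card G := by exact_mod_cast he
  rw [sub_mul, one_mul, div_mul_eq_mul_div]
  linarith

/-- The loss `D / 2 ^ k` can be made negligible. -/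
lemma exists_lt_mul_one_sub {a c : ℝ} (D : ℝ) (hc : c < a) :
    ∃ k : ℕ, c < a * (1 - D / 2 ^ k) := by
  have h : Tendsto (fun k : ℕ => a * (1 - D / 2 ^ k)) atTop (𝓝 (a * (1 - 0))) :=
    ((tendsto_const_nhds.div_atTop (tendsto_pow_atTop_atTop_of_one_lt one_lt_two)).const_sub
      1).const_mul _
  rw [sub_zero, mul_one] at h
  exact (h.eventually (eventually_gt_nhds hc)).exists

/-- The kernel of restriction to `L` and the cyclotomic character is open. -/
lemma isOpen_ker_restrict_prod_cycChar (L : IntermediateField ℚ ℚbar) [FiniteDimensional ℚ L]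
    [Normal ℚ L] (q : ℕ) [Fact q.Prime] :
    IsOpen (((AlgEquiv.restrictNormalHom L).prod (cycChar q)).ker : Set Γℚ) := by
  rw [MonoidHom.ker_prod, Subgroup.coe_inf]
  have h1 : (AlgEquiv.restrictNormalHom (F := ℚ) (K₁ := ℚbar) L).ker = L.fixingSubgroup :=
    Subgroup.ext fun σ => restrict_eq_one_iff L σ
  rw [h1]
  exact ((InfiniteGalois.isOpen_iff_finite L).mpr inferInstance).inter (isOpen_cycChar_ker q)

/-- For a conductor `q` unramified in `L`, restriction to `L` and the cyclotomic character are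
jointly surjective. -/
lemma exists_restrict_cycChar_eq (L : IntermediateField ℚ ℚbar) [FiniteDimensional ℚ L]
    [Normal ℚ L] {q : ℕ} [Fact q.Prime] (hqL : q ∉ exceptionalPrimes L) (σ : L ≃ₐ[ℚ] L)
    (τ : (ZMod q)ˣ) :
    ∃ γ : Γℚ, AlgEquiv.restrictNormalHom L γ = σ ∧ cycChar q γ = τ := by
  have hq : q.Prime := Fact.out
  obtain ⟨σ₀, hσ₀⟩ := AlgEquiv.restrictNormalHom_surjective (F := ℚ) (K₁ := L) ℚbar σ
  obtain ⟨A, hA⟩ := exists_place (ℓ := q) hq
  obtain ⟨γ, hγ, hγc⟩ := CFT.exists_mem_inertia_cycChar hA ((cycChar q σ₀)⁻¹ * τ)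
  have hQ : (primeBelow L A).IsPrime := Ideal.IsPrime.comap _
  have hres : AlgEquiv.restrictNormalHom L γ = 1 := by
    refine inertia_eq_one hq hqL hQ ?_ fun x => ?_
    · rw [primeBelow, Ideal.mem_comap, map_natCast]; exact natCast_mem_primeOf hA
    · rw [primeBelow, Ideal.mem_comap, map_sub, algebraMap_restrict_smul]
      exact (mem_inertiaSubgroupIn_iff hq hA γ).mp hγ _
  refine ⟨σ₀ * γ, ?_, ?_⟩
  · rw [map_mul, hres, mul_one, hσ₀]
  · rw [map_mul, hγc, mul_inv_cancel_left]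

/-- The compositum of `L` and the cyclotomic field of conductor `q`, with its Galois group. -/
lemma exists_crossed_field (L : IntermediateField ℚ ℚbar) [FiniteDimensional ℚ L] [Normal ℚ L]
    {q : ℕ} [Fact q.Prime] (hqL : q ∉ exceptionalPrimes L) :
    ∃ (M : IntermediateField ℚ ℚbar) (_ : FiniteDimensional ℚ M) (_ : IsGalois ℚ M)
      (π : (M ≃ₐ[ℚ] M) →* (L ≃ₐ[ℚ] L) × (ZMod q)ˣ), Function.Bijective π ∧
        ∀ σ : Γℚ, π (AlgEquiv.restrictNormalHom M σ) = (AlgEquiv.restrictNormalHom L σ,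
          cycChar q σ) := by
  set φ : Γℚ →* (L ≃ₐ[ℚ] L) × (ZMod q)ˣ := (AlgEquiv.restrictNormalHom L).prod (cycChar q)
  have hopen : IsOpen (φ.ker : Set Γℚ) := isOpen_ker_restrict_prod_cycChar L q
  let M : IntermediateField ℚ ℚbar := IntermediateField.fixedField φ.ker
  have hfix : M.fixingSubgroup = φ.ker :=
    InfiniteGalois.fixingSubgroup_fixedField
      (⟨φ.ker, Subgroup.isClosed_of_isOpen _ hopen⟩ : ClosedSubgroup Γℚ)
  have : FiniteDimensional ℚ M :=
    (InfiniteGalois.isOpen_iff_finite _).mp (by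
      change IsOpen (M.fixingSubgroup : Set Γℚ); rw [hfix]; exact hopen)
  have : IsGalois ℚ M := (InfiniteGalois.normal_iff_isGalois _).mp (by rw [hfix]; infer_instance)
  have hresM := AlgEquiv.restrictNormalHom_surjective (F := ℚ) (K₁ := M) ℚbar
  have hker : (AlgEquiv.restrictNormalHom (F := ℚ) (K₁ := ℚbar) M).ker = φ.ker := by
    rw [← hfix]; exact Subgroup.ext fun σ => restrict_eq_one_iff M σ
  let π : (M ≃ₐ[ℚ] M) →* (L ≃ₐ[ℚ] L) × (ZMod q)ˣ :=
    (AlgEquiv.restrictNormalHom M).liftOfSurjective hresM ⟨φ, hker.le⟩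
  have hπ : ∀ σ, π (AlgEquiv.restrictNormalHom M σ) = φ σ := fun σ =>
    MonoidHom.liftOfRightInverse_comp_apply _ _ (Function.surjInv_eq hresM) _ _
  have hπinj : Function.Injective π := by
    rw [injective_iff_map_eq_one]
    intro g hg
    obtain ⟨σ, rfl⟩ := hresM g
    rw [hπ] at hg
    exact MonoidHom.mem_ker.mp (hker.symm ▸ MonoidHom.mem_ker.mpr hg)
  have hπsurj : Function.Surjective π := fun x => by
    obtain ⟨γ, h1, h2⟩ := exists_restrict_cycChar_eq L hqL x.1 x.2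
    exact ⟨AlgEquiv.restrictNormalHom M γ, (hπ γ).trans (Prod.ext h1 h2)⟩
  exact ⟨M, inferInstance, inferInstance, π, ⟨hπinj, hπsurj⟩, hπ⟩

/-- A Frobenius element at an unramified prime is the restriction of a Frobenius at a place above
it. -/
lemma exists_frobenius_lift (M : IntermediateField ℚ ℚbar) [FiniteDimensional ℚ M] [IsGalois ℚ M]
    {p : ℕ} (hp : p.Prime) (hgood : p ∉ exceptionalPrimes M) {Q : Ideal (𝓞 M)} (hQ : Q.IsPrime)
    (hpQ : (p : 𝓞 M) ∈ Q) {σ : M ≃ₐ[ℚ] M} (hσ : IsFrobeniusMod σ Q p) :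
    ∃ (A : ValuationSubring ℚbar) (σ₀ : Γℚ), A.LiesOverPrime p ∧ A.IsFrobeniusAt σ₀ p ∧
      AlgEquiv.restrictNormalHom M σ₀ = σ := by
  obtain ⟨A, hA, hAQ⟩ := exists_place_over M hQ hp hpQ
  obtain ⟨σ₀, hσ₀⟩ := exists_isFrobeniusAt hp hA
  refine ⟨A, σ₀, hA, hσ₀, ?_⟩
  set σ' := AlgEquiv.restrictNormalHom M σ₀
  have hσ' : IsFrobeniusMod σ' Q p := fun x => by
    rw [← hAQ, Ideal.mem_comap, map_sub, map_pow, algebraMap_restrict_smul]
    exact (isFrobeniusAt_iff hp hA σ₀).mp hσ₀ _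
  refine mul_inv_eq_one.mp (inertia_eq_one hp hgood hQ hpQ fun y => ?_)
  simpa [mul_smul] using Q.sub_mem (hσ' (σ⁻¹ • y)) (hσ (σ⁻¹ • y))

/-- The Frobenius counts weighted by the order, fibred over the primes. -/
lemma sum_orderOf_mul_frobCount (M : IntermediateField ℚ ℚbar) [FiniteDimensional ℚ M]
    (S : Finset (M ≃ₐ[ℚ] M)) (p : Nat.Primes) :
    ∑ g ∈ S, (orderOf g : ℝ) * frobCount M g p =
      ((∑ Q ∈ frobPrimes M p.2 (S : Set (M ≃ₐ[ℚ] M)), orderOf (frobMod M Q p) : ℕ) : ℝ) := by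
  rw [← Finset.sum_fiberwise_of_maps_to (g := fun Q => frobMod M Q (p : ℕ)) (t := S)
    fun Q hQ => Finset.mem_coe.mp ((mem_frobPrimes p.2).mp hQ).2]
  push_cast
  refine Finset.sum_congr rfl fun g hg => ?_
  rw [Finset.sum_congr rfl (g := fun _ => (orderOf g : ℝ)) fun Q hQ => by
    rw [(Finset.mem_filter.mp hQ).2], Finset.sum_const, nsmul_eq_mul, mul_comm, frobCount]
  congr 2
  exact congrArg Finset.card (Finset.ext fun Q => by
    simp only [Finset.mem_filter, mem_frobPrimes, Set.mem_singleton_iff, Finset.mem_coe]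
    exact ⟨fun h => ⟨⟨h.1, h.2 ▸ hg⟩, h.2⟩, fun h => ⟨h.1.1, h.2⟩⟩)

/-- Elements all restricting into `C` count at most the primes with Frobenius in `C`. -/
lemma frobSum_le_frobInd (L M : IntermediateField ℚ ℚbar) [Normal ℚ L]
    [FiniteDimensional ℚ M] [IsGalois ℚ M] (C : Set (L ≃ₐ[ℚ] L)) (S : Finset (M ≃ₐ[ℚ] M))
    (hS : ∀ σ : Γℚ, AlgEquiv.restrictNormalHom M σ ∈ S → AlgEquiv.restrictNormalHom L σ ∈ C)
    (p : Nat.Primes) (hgood : (p : ℕ) ∉ exceptionalPrimes M) :
    (1 / Nat.card (M ≃ₐ[ℚ] M) : ℝ) * ∑ g ∈ S, (orderOf g : ℝ) * frobCount M g p ≤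
      frobInd L C p := by
  have hΓ0 : (0 : ℝ) < Nat.card (M ≃ₐ[ℚ] M) := Nat.cast_pos.mpr Nat.card_pos
  rw [sum_orderOf_mul_frobCount]
  rw [frobInd]
  split_ifs with hind
  · rw [one_div_mul_eq_div, div_le_one hΓ0]
    refine Nat.cast_le.mpr ((Finset.sum_le_sum_of_subset (t := frobPrimes M p.2
      ((⊤ : Subgroup (M ≃ₐ[ℚ] M)) : Set (M ≃ₐ[ℚ] M))) fun Q hQ => ?_).trans ?_)
    · exact (mem_frobPrimes p.2).mpr ⟨((mem_frobPrimes p.2).mp hQ).1, Subgroup.mem_top _⟩
    · rw [sum_orderOf_frobPrimes ⊤ p.2 hgood, Subgroup.card_top]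
      refine (Nat.mul_le_mul_left _ (idealCount_prime_le _ p.2)).trans_eq ?_
      rw [InfiniteGalois.fixedField_bot, IntermediateField.finrank_bot, mul_one]
  · rw [show frobPrimes M p.2 (S : Set (M ≃ₐ[ℚ] M)) = ∅ from
      Finset.eq_empty_of_forall_notMem fun Q hQ => hind ?_]
    · simp
    obtain ⟨⟨hQp, hpQ⟩, hQS⟩ := (mem_frobPrimes p.2).mp hQ
    obtain ⟨A, σ₀, hA, hσ₀, hσ⟩ := exists_frobenius_lift M p.2 hgood hQp hpQ
      (isFrobeniusMod_frobMod p.2 hQp hpQ)
    exact ⟨A, σ₀, hA, hσ₀, hS σ₀ (hσ ▸ Finset.mem_coe.mp hQS)⟩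

end Cheb

/-- `-log (s - 1)` tends to infinity as `s` tends to `1` from the right. -/
theorem tendsto_negLog : Tendsto (fun s : ℝ => -Real.log (s - 1)) (𝓝[>] 1) atTop := by
  refine tendsto_neg_atBot_atTop.comp (Real.tendsto_log_nhdsGT_zero.comp
    (tendsto_nhdsWithin_of_tendsto_nhds_of_eventually_within _ ?_ ?_))
  · simpa using ((continuous_sub_right (1 : ℝ)).tendsto 1).mono_left nhdsWithin_le_nhds
  · filter_upwards [self_mem_nhdsWithin] with s hs using sub_pos.mpr (Set.mem_Ioi.mp hs)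

namespace Cheb

/-- A weight in `[0, 1]` dominating, outside a finite set, one of density `r` has lower density
at least `r`. -/
lemma eventually_le_primeSum_of_le {F G : Nat.Primes → ℝ} {r c : ℝ} (hF : IsLogAsymp F r)
    (hG : ∀ p, |G p| ≤ 1) (hG0 : ∀ p, 0 ≤ G p) (T : Finset ℕ)
    (hle : ∀ p : Nat.Primes, (p : ℕ) ∉ T → F p ≤ G p) (hc : c < r) :
    ∀ᶠ s in 𝓝[>] (1 : ℝ), c * (-Real.log (s - 1)) ≤ primeSum G s := by
  obtain ⟨B, hB⟩ := hF.bdd
  set E : Nat.Primes → ℝ := fun p => if (p : ℕ) ∈ T then |F p| else 0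
  have hEB : ∀ p, |E p| ≤ B := fun p => by
    simp only [E]; split_ifs
    · rw [abs_abs]; exact hB p
    · rw [abs_zero]; exact (abs_nonneg _).trans (hB p)
  have hE : IsLogAsymp E 0 := IsLogAsymp.of_finite_support hEB
    (((T).finite_toSet.preimage Nat.Primes.coe_nat_injective.injOn).subset
      fun p hp => by
        by_contra h
        exact hp (if_neg fun hm => h (Finset.mem_coe.mpr hm)))
  obtain ⟨b₁, hb₁⟩ := hF.isBigO.bound
  obtain ⟨b₂, hb₂⟩ := hE.isBigO.bound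
  filter_upwards [self_mem_nhdsWithin, hb₁, hb₂,
    tendsto_negLog.eventually (eventually_ge_atTop ((|b₁| + |b₂|) / (r - c)))]
    with s hs h1 h2 h3
  have hmono : primeSum F s - primeSum E s ≤ primeSum G s := by
    rw [primeSum, primeSum, primeSum, ← (summable_primeSum hB hs).tsum_sub
      (summable_primeSum hEB hs)]
    refine ((summable_primeSum hB hs).sub (summable_primeSum hEB hs)).tsum_le_tsum (fun p => ?_)
      (summable_primeSum hG hs)
    rw [← sub_mul]
    refine mul_le_mul_of_nonneg_right ?_ (Real.rpow_nonneg (Nat.cast_nonneg _) _)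
    simp only [E]
    split_ifs with h
    · have := hG0 p
      linarith [le_abs_self (F p)]
    · linarith [hle p h]
  rw [div_le_iff₀ (sub_pos.mpr hc)] at h3
  simp only [norm_one, mul_one, Real.norm_eq_abs, zero_mul, sub_zero] at h1 h2
  linarith [(abs_le.mp h1).1, (abs_le.mp h2).2, le_abs_self b₁, le_abs_self b₂]

end Cheb

open Cheb

/-- **Chebotarev's density theorem.** The primes with Frobenius in a conjugation stable set have at
least its proportion as logarithmic density. -/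
theorem chebStatement : ChebStatement := by
  intro L _ _ C _ c hc
  set D := Nat.card (L ≃ₐ[ℚ] L) with hD
  have hD0 : D ≠ 0 := Nat.card_pos.ne'
  obtain ⟨k, hk⟩ := exists_lt_mul_one_sub (D : ℝ) hc
  obtain ⟨q, hq, hqbig, hqmod⟩ := Nat.exists_prime_gt_modEq_one
    ((exceptionalPrimes L).sup id) (pow_ne_zero (k + 1) hD0)
  have : Fact q.Prime := ⟨hq⟩
  have hqL : q ∉ exceptionalPrimes L := fun h =>
    absurd (Finset.le_sup (f := id) h) (not_le.mpr hqbig)
  have hU : Nat.card (ZMod q)ˣ = q - 1 := by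
    rw [Nat.card_eq_fintype_card, ZMod.card_units]
  have hqdvd : D ^ (k + 1) ∣ Nat.card (ZMod q)ˣ := by
    rw [hU]; exact (Nat.modEq_iff_dvd' hq.one_le).mp hqmod.symm
  -- the crossed field
  obtain ⟨M, _, _, π, ⟨hπinj, hπsurj⟩, hπ⟩ := exists_crossed_field L hqL
  let cyc : (M ≃ₐ[ℚ] M) →* (ZMod q)ˣ := (MonoidHom.snd (L ≃ₐ[ℚ] L) (ZMod q)ˣ).comp π
  have hfrob : ∀ p : ℕ, p.Prime → p ∉ exceptionalPrimes M → p ≠ q → ∀ Q : Ideal (𝓞 M), Q.IsPrime →
      (p : 𝓞 M) ∈ Q → ∀ σ, IsFrobeniusMod σ Q p → ((cyc σ : (ZMod q)ˣ) : ZMod q) = p := by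
    intro p hp hgood hpq Q hQ hpQ σ hσ
    obtain ⟨A, σ₀, hA, hσ₀, rfl⟩ := exists_frobenius_lift M hp hgood hQ hpQ hσ
    change (((π (AlgEquiv.restrictNormalHom M σ₀)).2 : (ZMod q)ˣ) : ZMod q) = p
    rw [hπ]
    exact cycChar_frobenius hp hpq hA hσ₀
  -- the elements used
  set S : Finset (M ≃ₐ[ℚ] M) := Finset.univ.filter fun g => (π g).1 ∈ C ∧ D ∣ orderOf (π g).2
  have hord : ∀ g ∈ S, orderOf (cyc g) = orderOf g := fun g hg => by
    obtain ⟨-, -, hd⟩ := Finset.mem_filter.mp hg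
    change orderOf (π g).2 = _
    rw [← orderOf_injective π hπinj g, Prod.orderOf]
    exact (Nat.lcm_eq_right ((orderOf_dvd_natCard _).trans hd)).symm
  set ΓM := Nat.card (M ≃ₐ[ℚ] M)
  have hΓM : ΓM = D * Nat.card (ZMod q)ˣ := by
    rw [← Nat.card_prod]; exact Nat.card_congr (Equiv.ofBijective π ⟨hπinj, hπsurj⟩)
  have hΓ0 : (0 : ℝ) < ΓM := Nat.cast_pos.mpr Nat.card_pos
  have hSr : c < (S.card : ℝ) / ΓM := by
    refine hk.trans_le ?_
    have h1 : S.card = Nat.card C * Nat.card {τ : (ZMod q)ˣ // D ∣ orderOf τ} := by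
      rw [← Nat.card_prod, ← Nat.card_eq_finsetCard]
      exact Nat.card_congr (((Equiv.ofBijective π ⟨hπinj, hπsurj⟩).subtypeEquiv
        (q := fun x => x.1 ∈ C ∧ D ∣ orderOf x.2) fun g => by simp [S]).trans
          (Equiv.subtypeProdEquivProd (p := fun σ : L ≃ₐ[ℚ] L => σ ∈ C)
            (q := fun τ : (ZMod q)ˣ => D ∣ orderOf τ)))
    have h2 := le_card_dvd_orderOf (G := (ZMod q)ˣ) D k hD0 hqdvd
    rw [le_div_iff₀ hΓ0, h1, hΓM]
    push_cast
    calc (Nat.card C : ℝ) / D * (1 - (D : ℝ) / 2 ^ k) * (D * (Nat.card (ZMod q)ˣ : ℝ))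
        = (Nat.card C : ℝ) * (((1 : ℝ) - (D : ℝ) / 2 ^ k) * (Nat.card (ZMod q)ˣ : ℝ)) := by
          field_simp
      _ ≤ _ := mul_le_mul_of_nonneg_left h2 (Nat.cast_nonneg _)
  -- the comparison
  set F : Nat.Primes → ℝ := fun p => (1 / ΓM : ℝ) * ∑ g ∈ S, (orderOf g : ℝ) * frobCount M g p
  have hF : IsLogAsymp F ((S.card : ℝ) / ΓM) := by
    have h := (IsLogAsymp.finset_sum S (fun g p => (orderOf g : ℝ) * frobCount M g p) (fun _ => 1)
      fun g hg => ?_).const_mul (1 / ΓM : ℝ)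
    · rw [Finset.sum_const, nsmul_one, one_div_mul_eq_div] at h
      exact h
    · have h1 := (isLogAsymp_frobCount cyc hfrob g (hord g hg)).const_mul (orderOf g : ℝ)
      rwa [mul_one_div, div_self (Nat.cast_ne_zero.mpr (orderOf_pos g).ne')] at h1
  refine eventually_le_primeSum_of_le hF (fun p => ?_) (fun p => ?_) (exceptionalPrimes M)
    (frobSum_le_frobInd L M C S fun σ hσ => ?_) hSr
  · rw [frobInd]; split_ifs <;> simp
  · rw [frobInd]; split_ifs <;> norm_num
  · have h := (Finset.mem_filter.mp hσ).2.1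
    rwa [hπ] at h

end Fermat.DS

end
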