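import Mathlib

/-!
# Translates of a homogeneous Lipschitz function summed over a lattice

If `g s` is homogeneous of degree `-n s` on an `n`-dimensional space and Lipschitz on compact sets
avoiding `0`, then the difference of the sums of `g s` over two translates of a lattice has a limit
as `s → 1⁺`, so sums weighted by a periodic function of mean zero have one as well.
-/

set_option autoImplicit false

noncomputable section

open Filter Topology Module

namespace Fermat.DS.Cheb

variable {E : Type*} [NormedAddCommGroup E] [NormedSpace ℝ E]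

/-- Homogeneous of degree `-n s`, locally Lipschitz away from `0`, and zero at `0`. -/
structure HomLip (n : ℕ) (g : ℝ → E → ℂ) : Prop where
  /-- It is locally Lipschitz away from the origin, jointly in both variables. -/
  lip : LocallyLipschitzOn {p : ℝ × E | p.2 ≠ 0} (fun p => g p.1 p.2)
  /-- Scaling the point by `r > 0` multiplies the value at `s` by `r ^ (-n s)`. -/
  hom : ∀ (s : ℝ) (x : E), x ≠ 0 → ∀ r : ℝ, 0 < r →
    g s (r • x) = ((r ^ (-((n : ℝ) * s)) : ℝ) : ℂ) * g s x
  /-- It vanishes at the origin. -/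
  map_zero : ∀ s, g s 0 = 0

variable {n : ℕ} {g : ℝ → E → ℂ}

/-- `g` is continuous in the exponent. -/
lemma HomLip.continuous_left (hg : HomLip n g) (x : E) : Continuous fun s => g s x := by
  rcases eq_or_ne x 0 with rfl | hx
  · simp only [hg.map_zero]; exact continuous_const
  · exact hg.lip.continuousOn.comp_continuous (f := fun s : ℝ => (s, x)) (by fun_prop) fun _ => hx

/-- Outside a fixed ball the difference of two translates of a homogeneous Lipschitz function is
one degree smaller. -/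
lemma HomLip.exists_bound [FiniteDimensional ℝ E] (hg : HomLip n g) (a b : E) :
    ∃ C : ℝ, ∀ s ∈ Set.Icc (1 : ℝ) 2, ∀ y : E, 2 * ‖a - b‖ + 1 ≤ ‖y‖ →
      ‖g s (y + (a - b)) - g s y‖ ≤ C * ‖y‖⁻¹ ^ (n + 1) := by
  have := FiniteDimensional.proper ℝ E
  set S : Set (ℝ × E) := Set.Icc (1 : ℝ) 2 ×ˢ (Metric.closedBall (0 : E) 2 \ Metric.ball 0 (1 / 2))
  -- a Lipschitz constant on a shell around the unit sphere
  have hS : IsCompact S :=
    isCompact_Icc.prod ((isCompact_closedBall _ _).diff Metric.isOpen_ball)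
  have hne : S ⊆ {p : ℝ × E | p.2 ≠ 0} := fun p hp h => by
    have := hp.2.2
    simp [h] at this
  obtain ⟨L, hL⟩ := (hg.lip.mono hne).exists_lipschitzOnWith_of_compact hS
  refine ⟨L * ‖a - b‖, fun s hs y hy => ?_⟩
  set r := ‖y‖
  have hr : 1 ≤ r := by linarith [norm_nonneg (a - b)]
  set u := r⁻¹ • y with hu
  set u' := r⁻¹ • (y + (a - b)) with hu'
  -- scale both points to the shell
  have hnu : ‖u‖ = 1 := by
    rw [hu, norm_smul, norm_inv, Real.norm_eq_abs, abs_of_pos (by linarith),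
      inv_mul_cancel₀ (by linarith)]
  have hd : ‖u' - u‖ = r⁻¹ * ‖a - b‖ := by
    rw [hu, hu', ← smul_sub, add_sub_cancel_left, norm_smul, norm_inv, Real.norm_eq_abs,
      abs_of_pos (by linarith)]
  have hd2 : ‖u' - u‖ ≤ 1 / 2 := by
    rw [hd, inv_mul_le_iff₀ (by linarith)]; linarith
  have hu'1 : 1 / 2 ≤ ‖u'‖ ∧ ‖u'‖ ≤ 3 / 2 := by
    have h1 := norm_sub_norm_le u u'
    have h2 := norm_sub_norm_le u' u
    rw [norm_sub_rev] at h1
    constructor <;> linarith
  have hmem : (s, u) ∈ S ∧ (s, u') ∈ S := by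
    refine ⟨⟨hs, ?_, ?_⟩, hs, ?_, ?_⟩ <;>
      simp only [Metric.mem_closedBall, Metric.mem_ball, dist_zero_right, not_lt] <;>
      linarith [hu'1.1, hu'1.2]
  have hL' : ‖g s u' - g s u‖ ≤ L * ‖u' - u‖ := by
    have h := hL.dist_le_mul _ hmem.2 _ hmem.1
    simpa [dist_eq_norm, Prod.norm_def] using h
  -- homogeneity
  have hy1 : g s y = ((r ^ (-((n : ℝ) * s)) : ℝ) : ℂ) * g s u := by
    rw [← hg.hom s u (norm_ne_zero_iff.mp (by rw [hnu]; norm_num)) r (by linarith), hu, smul_smul,
      mul_inv_cancel₀ (by linarith), one_smul]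
  have hy2 : g s (y + (a - b)) = ((r ^ (-((n : ℝ) * s)) : ℝ) : ℂ) * g s u' := by
    rw [← hg.hom s u' (norm_ne_zero_iff.mp (ne_of_gt (by linarith [hu'1.1]))) r (by linarith), hu',
      smul_smul, mul_inv_cancel₀ (by linarith), one_smul]
  rw [hy1, hy2, ← mul_sub, norm_mul, Complex.norm_real, Real.norm_eq_abs,
    abs_of_pos (Real.rpow_pos_of_pos (by linarith) _)]
  have hpow : r ^ (-((n : ℝ) * s)) ≤ r⁻¹ ^ n := by
    rw [inv_pow, ← Real.rpow_natCast, ← Real.rpow_neg (by linarith)]
    exact Real.rpow_le_rpow_of_exponent_le hr (by nlinarith [hs.1, Nat.cast_nonneg (α := ℝ) n])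
  calc r ^ (-((n : ℝ) * s)) * ‖g s u' - g s u‖ ≤ r⁻¹ ^ n * (L * ‖u' - u‖) :=
        mul_le_mul hpow hL' (norm_nonneg _) (by positivity)
    _ = _ := by rw [hd, pow_succ]; ring

/-- The difference of the sums over two translates of a lattice has a limit at `1⁺`. -/
theorem exists_tendsto_tsum_shift_sub [FiniteDimensional ℝ E] (Λ : Submodule ℤ E)
    [DiscreteTopology Λ] [IsZLattice ℝ Λ] (hg : HomLip (finrank ℝ E) g) (a b : E) :
    ∃ ℓ, Tendsto (fun s => ∑' v : Λ, (g s ((v : E) + a) - g s ((v : E) + b))) (𝓝[>] 1) (𝓝 ℓ) := by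
  have := FiniteDimensional.proper ℝ E
  have := ZLattice.module_finite ℝ Λ
  -- the difference decays with exponent `rank + 1` away from a ball
  obtain ⟨C, hC⟩ := hg.exists_bound a b
  have hM : ∀ v : Λ, ∃ M : ℝ, ∀ s ∈ Set.Icc (1 : ℝ) 2,
      ‖g s ((v : E) + a) - g s ((v : E) + b)‖ ≤ M := fun v =>
    isCompact_Icc.exists_bound_of_continuousOn
      (f := fun s => g s ((v : E) + a) - g s ((v : E) + b))
      ((hg.continuous_left _).sub (hg.continuous_left _)).continuousOn
  choose M hM using hM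
  classical
  set R := 2 * ‖a - b‖ + 1
  let bound : Λ → ℝ := fun v =>
    if R ≤ ‖(v : E) + b‖ then C * ‖(v : E) + b‖⁻¹ ^ (finrank ℝ E + 1) else M v
  have hfin : {v : Λ | ‖(v : E) + b‖ < R}.Finite := by
    have hcl : IsClosed (X := E) Λ := @AddSubgroup.isClosed_of_discrete _ _ _ _ _
      Λ.toAddSubgroup (inferInstanceAs (DiscreteTopology Λ))
    refine ((Metric.finite_isBounded_inter_isClosed DiscreteTopology.isDiscrete
      (Metric.isBounded_closedBall (x := (0 : E)) (r := R + ‖b‖)) hcl).preimage_embedding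
      (.subtype _)).subset ?_
    intro v hv
    rw [Set.mem_ofPred_eq] at hv
    refine ⟨?_, v.2⟩
    simp only [Function.Embedding.subtype_apply, Metric.mem_closedBall, dist_zero_right]
    linarith [norm_sub_le ((v : E) + b) b, congrArg norm (add_sub_cancel_right (v : E) b)]
  -- so it is dominated by a summable bound
  have hb : Summable bound := by
    have h1 : Summable fun v : Λ => C * ‖(v : E) + b‖⁻¹ ^ (finrank ℝ E + 1) := by
      have := ZLattice.summable_norm_sub_inv_pow Λ (finrank ℝ E + 1)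
        (by rw [ZLattice.rank ℝ Λ]; omega) (-b)
      simpa [sub_neg_eq_add] using this.mul_left C
    refine h1.congr_cofinite ?_
    refine hfin.subset fun v hv => ?_
    by_contra h
    exact hv (if_pos (not_lt.mp h)).symm
  refine ⟨_, tendsto_tsum_of_dominated_convergence hb
    (g := fun v : Λ => g 1 ((v : E) + a) - g 1 ((v : E) + b)) (fun v => ?_) ?_⟩
  · exact (((hg.continuous_left _).sub (hg.continuous_left _)).tendsto 1).mono_left
      nhdsWithin_le_nhds
  · filter_upwards [Ioo_mem_nhdsGT (show (1 : ℝ) < 2 by norm_num)] with s hs v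
    have hs' : s ∈ Set.Icc (1 : ℝ) 2 := ⟨hs.1.le, hs.2.le⟩
    simp only [bound]
    split_ifs with h
    · have := hC s hs' ((v : E) + b) h
      rwa [add_assoc, add_sub_cancel] at this
    · exact hM v s hs'

/-- A periodic function of mean zero gives a sum with a limit at `1⁺`. -/
theorem exists_tendsto_periodic [FiniteDimensional ℝ E] {A : Type*} [AddCommGroup A] (e : A →+ E)
    (B : AddSubgroup A) [Fintype (A ⧸ B)] (Λ : Submodule ℤ E) [DiscreteTopology Λ]
    [IsZLattice ℝ Λ] (hinj : Function.Injective e) (hΛ : ∀ x, x ∈ Λ ↔ ∃ y ∈ B, e y = x)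
    (hg : HomLip (finrank ℝ E) g) (c : A ⧸ B → ℂ) (hc : ∑ ρ, c ρ = 0)
    (hs : ∀ᶠ s in 𝓝[>] (1 : ℝ), Summable fun y : A => g s (e y)) :
    ∃ ℓ, Tendsto (fun s => ∑' y : A, c (y : A ⧸ B) * g s (e y)) (𝓝[>] 1) (𝓝 ℓ) := by
  choose ℓ hℓ using fun ρ : A ⧸ B => exists_tendsto_tsum_shift_sub Λ hg (e ρ.out) 0
  refine ⟨∑ ρ, c ρ * ℓ ρ, (tendsto_finsetSum _ fun ρ _ => (hℓ ρ).const_mul (c ρ)).congr' ?_⟩
  filter_upwards [hs] with s hs
  -- split the sum over `A` into the cosets of `B`
  let θ : (A ⧸ B) × B ≃ A :=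
    { toFun := fun p => p.1.out + p.2
      invFun := fun y => ((y : A ⧸ B), ⟨-(y : A ⧸ B).out + y,
        QuotientAddGroup.eq.mp (QuotientAddGroup.out_eq' _)⟩)
      left_inv := fun p => by
        have h : ((p.1.out + (p.2 : A) : A) : A ⧸ B) = p.1 := by
          rw [QuotientAddGroup.mk_add_of_mem _ p.2.2, QuotientAddGroup.out_eq']
        refine Prod.ext h (Subtype.ext ?_)
        simp [h]
      right_inv := fun y => by simp }
  let η : B ≃ Λ := Equiv.ofBijective (fun y => ⟨e y, (hΛ _).mpr ⟨y, y.2, rfl⟩⟩)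
    ⟨fun x y h => Subtype.ext (hinj (congrArg Subtype.val h)), fun x => by
      obtain ⟨y, hy, he⟩ := (hΛ _).mp x.2
      exact ⟨⟨y, hy⟩, Subtype.ext he⟩⟩
  have hmk : ∀ p, ((θ p : A) : A ⧸ B) = p.1 := fun p => by
    change ((p.1.out + (p.2 : A) : A) : A ⧸ B) = p.1
    rw [QuotientAddGroup.mk_add_of_mem _ p.2.2, QuotientAddGroup.out_eq']
  -- each coset is a shift of the lattice
  have hsum : ∀ ρ : A ⧸ B, Summable fun v : Λ => g s ((v : E) + e ρ.out) := fun ρ => by
    refine η.summable_iff.mp ?_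
    refine ((θ.summable_iff.mpr hs).prod_factor ρ).congr fun y => ?_
    simp only [Function.comp_apply, θ, η, Equiv.coe_fn_mk, Equiv.ofBijective_apply, map_add,
      add_comm (e ρ.out)]
  have h0 : Summable fun v : Λ => g s ((v : E) + 0) := by
    refine η.summable_iff.mp ((hs.comp_injective Subtype.val_injective).congr fun y => ?_)
    simp [η]
  have hcs : Summable fun y : A => c (y : A ⧸ B) * g s (e y) := by
    refine Summable.of_norm_bounded (g := fun y : A => (∑ ρ, ‖c ρ‖) * ‖g s (e y)‖)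
      (hs.norm.mul_left _) fun y => ?_
    rw [norm_mul]
    exact mul_le_mul_of_nonneg_right (Finset.single_le_sum (f := fun ρ => ‖c ρ‖)
      (fun _ _ => norm_nonneg _) (Finset.mem_univ _)) (norm_nonneg _)
  rw [← θ.tsum_eq (fun y : A => c (y : A ⧸ B) * g s (e y))]
  have hcs' : Summable fun p : (A ⧸ B) × B => c ((θ p : A) : A ⧸ B) * g s (e (θ p)) :=
    θ.summable_iff.mpr hcs
  rw [hcs'.tsum_prod' fun ρ => hcs'.prod_factor ρ, tsum_fintype]
  have : ∀ ρ : A ⧸ B, ∑' y : B, c ((θ (ρ, y) : A) : A ⧸ B) * g s (e (θ (ρ, y))) =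
      c ρ * ∑' v : Λ, g s ((v : E) + e ρ.out) := fun ρ => by
    rw [← η.tsum_eq (fun v : Λ => g s ((v : E) + e ρ.out)), ← tsum_mul_left]
    refine tsum_congr fun y => ?_
    rw [hmk]
    simp [θ, η, add_comm]
  -- the unshifted sums cancel
  simp only [this, fun ρ => Summable.tsum_sub (hsum ρ) h0, mul_sub, Finset.sum_sub_distrib,
    ← Finset.sum_mul, hc, zero_mul, sub_zero]

end Fermat.DS.Cheb

end
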