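import Fermat.Agent.DS.Cheb.Shift

/-!
# A Lipschitz partition of unity on the mixed space for the unit group

The weight is homogeneous of degree `0` and supported away from the points of norm `0`; the
translates under the units add up to `1` at every point of nonzero norm.
-/

set_option autoImplicit false

noncomputable section

open Filter Topology Module NumberField InfinitePlace
open NumberField.mixedEmbedding NumberField.Units NumberField.Units.dirichletUnitTheorem
open scoped Classical

namespace Fermat.DS.Cheb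

variable (K : Type*) [Field K] [NumberField K]

/-- The tent function. -/
def tent (t : ℝ) : ℝ := max 0 (1 - |t|)

/-- The real basis of the logarithmic space given by the fundamental units. -/
def logBasis : Basis (Fin (Units.rank K)) ℝ (logSpace K) :=
  (basisUnitLattice K).ofZLatticeBasis ℝ (unitLattice K)

variable {K}

/-- The logarithmic coordinates along the fundamental units. -/
def logCoord (x : mixedSpace K) : Fin (Units.rank K) → ℝ := (logBasis K).equivFun (logMap x)

/-- The weight: the product of the tents of the logarithmic coordinates over the order of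
torsion. -/
def wt (x : mixedSpace K) : ℝ := (∏ i, tent (logCoord x i)) * ((torsionOrder K : ℕ) : ℝ)⁻¹

/-- The norm of the algebra, with its sign. -/
def algNorm (x : mixedSpace K) : ℝ := Algebra.norm ℝ x

/-- The weighted power of the norm, twisted by `η` on negative norms. -/
def kern (η : ℂ) (s : ℝ) (x : mixedSpace K) : ℂ :=
  if mixedEmbedding.norm x = 0 then 0
  else ((wt x * mixedEmbedding.norm x ^ (-s) : ℝ) : ℂ) * (if algNorm x < 0 then η else 1)

/-! ### The tents add up to one -/

/-- The tent function is nonnegative. -/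
lemma tent_nonneg (t : ℝ) : 0 ≤ tent t := le_max_left _ _

/-- The weight is nonnegative. -/
lemma wt_nonneg (x : mixedSpace K) : 0 ≤ wt x :=
  mul_nonneg (Finset.prod_nonneg fun _ _ => tent_nonneg _) (by positivity)

/-- The tent function is supported in `(-1, 1)`. -/
lemma abs_lt_one_of_tent_ne_zero {t : ℝ} (h : tent t ≠ 0) : |t| < 1 := by
  by_contra hc
  exact h (max_eq_left (by linarith [not_lt.mp hc]))

/-- The integer translates of the tent function sum to one. -/
lemma sum_tent (c : ℝ) : ∑ k ∈ ({-⌊c⌋, -⌊c⌋ - 1} : Finset ℤ), tent (c + k) = 1 := by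
  have h1 := Int.floor_le c
  have h2 := Int.lt_floor_add_one c
  rw [Finset.sum_pair (by omega), tent, tent]
  push_cast
  rw [abs_of_nonneg (by linarith : (0 : ℝ) ≤ c + -(⌊c⌋ : ℝ)),
    abs_of_nonpos (by linarith : c + (-(⌊c⌋ : ℝ) - 1) ≤ 0), max_eq_right (by linarith),
    max_eq_right (by linarith)]
  ring

/-- Only two translates of the tent function are nonzero at a given point. -/
lemma mem_of_tent_ne_zero {c : ℝ} {k : ℤ} (h : tent (c + k) ≠ 0) :
    k ∈ ({-⌊c⌋, -⌊c⌋ - 1} : Finset ℤ) := by
  have h' := abs_lt.mp (abs_lt_one_of_tent_ne_zero h)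
  have h1 := Int.floor_le c
  have h2 := Int.lt_floor_add_one c
  have h3 : (k : ℝ) < ((-⌊c⌋ + 1 : ℤ) : ℝ) := by push_cast; linarith
  have h4 : (((-⌊c⌋ - 2 : ℤ)) : ℝ) < k := by push_cast; linarith
  rw [Int.cast_lt] at h3 h4
  simp only [Finset.mem_insert, Finset.mem_singleton]
  omega

/-- The units as the product of the torsion and the fundamental units. -/
def unitEquiv : torsion K × (Fin (Units.rank K) → ℤ) ≃ (𝓞 K)ˣ :=
  Equiv.ofBijective (fun p => p.1 * ∏ i, fundSystem K i ^ p.2 i)
    ((Function.bijective_iff_existsUnique _).mpr fun u => by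
      obtain ⟨p, hp, huniq⟩ := exist_unique_eq_mul_prod K u
      exact ⟨p, hp.symm, fun q hq => huniq q hq.symm⟩)

/-- A unit translates the logarithmic coordinates by its exponents. -/
lemma logCoord_unit_smul (p : torsion K × (Fin (Units.rank K) → ℤ)) {x : mixedSpace K}
    (hx : mixedEmbedding.norm x ≠ 0) (i : Fin (Units.rank K)) :
    logCoord (unitEquiv p • x) i = p.2 i + logCoord x i := by
  have h : logEmbedding K (Additive.ofMul (unitEquiv p : (𝓞 K)ˣ)) =
      ∑ j, (p.2 j : ℝ) • logBasis K j := by
    change logEmbedding K (Additive.ofMul ((p.1 : (𝓞 K)ˣ) * ∏ j, fundSystem K j ^ p.2 j)) = _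
    rw [ofMul_mul, map_add, ofMul_prod, map_sum,
      logEmbedding_eq_zero_iff.mpr p.1.2, zero_add]
    refine Finset.sum_congr rfl fun j _ => ?_
    rw [ofMul_zpow, map_zsmul, logEmbedding_fundSystem, logBasis, Basis.ofZLatticeBasis_apply,
      Int.cast_smul_eq_zsmul]
  have h1 : (logBasis K).equivFun (∑ j, (p.2 j : ℝ) • logBasis K j) = fun j => (p.2 j : ℝ) := by
    rw [← Basis.equivFun_symm_apply, LinearEquiv.apply_symm_apply]
  rw [logCoord, logMap_unit_smul _ hx, map_add, h, h1, Pi.add_apply]
  rfl

/-- The translates of the weight under the units add up to `1` off the points of norm `0`. -/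
theorem hasSum_wt {x : mixedSpace K} (hx : mixedEmbedding.norm x ≠ 0) :
    HasSum (fun u : (𝓞 K)ˣ => wt (u • x)) 1 := by
  rw [← unitEquiv.hasSum_iff]
  have : Fintype (torsion K) := Fintype.ofFinite _
  let t : Fin (Units.rank K) → Finset ℤ := fun i => {-⌊logCoord x i⌋, -⌊logCoord x i⌋ - 1}
  have h := hasSum_sum_of_ne_finset_zero (L := SummationFilter.unconditional _)
    (f := fun p => wt (unitEquiv (K := K) p • x))
    (s := (Finset.univ : Finset (torsion K)) ×ˢ Fintype.piFinset t) fun p hp => ?_
  · refine (congrArg (HasSum _) ?_).mp h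
    rw [Finset.sum_product]
    simp only [wt, logCoord_unit_smul _ hx, ← Finset.sum_mul]
    rw [← Finset.prod_univ_sum t (fun i (k : ℤ) => tent ((k : ℝ) + logCoord x i))]
    simp_rw [add_comm _ (logCoord x _)]
    simp only [t, sum_tent, Finset.prod_const_one, Finset.sum_const, Finset.card_univ,
      nsmul_eq_mul]
    rw [torsionOrder, Nat.card_eq_fintype_card]
    rw [mul_one]
    exact mul_inv_cancel₀ (show ((Fintype.card (torsion K) : ℕ) : ℝ) ≠ 0 from
      Nat.cast_ne_zero.mpr Fintype.card_ne_zero)
  · simp only [Finset.mem_product, Finset.mem_univ, true_and, Fintype.mem_piFinset,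
      not_forall] at hp
    obtain ⟨i, hi⟩ := hp
    simp only [wt, logCoord_unit_smul _ hx]
    refine mul_eq_zero_of_left (Finset.prod_eq_zero (Finset.mem_univ i) ?_) _
    by_contra h0
    rw [add_comm] at h0
    exact hi (mem_of_tent_ne_zero h0)

/-! ### The norm with sign -/

/-- A point of nonzero norm is invertible. -/
lemma isUnit_of_norm_ne_zero {x : mixedSpace K} (hx : mixedEmbedding.norm x ≠ 0) : IsUnit x := by
  rw [mixedEmbedding.norm_ne_zero_iff] at hx
  simp only [Prod.isUnit_iff, Pi.isUnit_iff, isUnit_iff_ne_zero]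
  refine ⟨fun w h => hx w.1 ?_, fun w h => hx w.1 ?_⟩
  · rw [normAtPlace_apply_of_isReal w.2, h, norm_zero]
  · rw [normAtPlace_apply_of_isComplex w.2, h, norm_zero]

/-- The algebra norm does not vanish where the norm does not. -/
lemma algNorm_ne_zero {x : mixedSpace K} (hx : mixedEmbedding.norm x ≠ 0) : algNorm x ≠ 0 :=
  ((isUnit_of_norm_ne_zero hx).map (Algebra.norm ℝ)).ne_zero

/-- The algebra norm is continuous. -/
lemma continuous_algNorm : Continuous (algNorm (K := K)) := by
  have h : (algNorm (K := K)) = fun x =>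
      (Algebra.leftMulMatrix (mixedEmbedding.latticeBasis K) x).det := by
    funext x; exact Algebra.norm_eq_matrix_det _ x
  rw [h]
  exact (LinearMap.continuous_of_finiteDimensional
    (Algebra.leftMulMatrix (mixedEmbedding.latticeBasis K)).toLinearMap).matrix_det

/-- The algebra norm is homogeneous of degree `[K : ℚ]`. -/
lemma algNorm_smul (r : ℝ) (x : mixedSpace K) :
    algNorm (r • x) = r ^ finrank ℚ K * algNorm x := by
  rw [algNorm, algNorm, Algebra.smul_def, map_mul, Algebra.norm_algebraMap,
    mixedEmbedding.finrank]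

/-- The mixed embedding is `ℚ`-linear. -/
lemma mixedEmbedding_rat_smul (q : ℚ) (y : K) :
    mixedEmbedding K (q • y) = (q : ℝ) • mixedEmbedding K y := by
  rw [Algebra.smul_def, map_mul, Algebra.smul_def]
  congr 1
  exact RingHom.congr_fun (Subsingleton.elim ((mixedEmbedding K).comp (algebraMap ℚ K))
    ((algebraMap ℝ (mixedSpace K)).comp (algebraMap ℚ ℝ))) q

/-- The algebra norm extends the field norm. -/
lemma algNorm_mixedEmbedding (a : K) :
    algNorm (mixedEmbedding K a) = ((Algebra.norm ℚ a : ℚ) : ℝ) := by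
  rw [algNorm, Algebra.norm_eq_matrix_det (mixedEmbedding.latticeBasis K),
    Algebra.norm_eq_matrix_det (integralBasis K), ← Rat.coe_castHom, RingHom.map_det]
  congr 1
  ext i j
  rw [RingHom.mapMatrix_apply, Matrix.map_apply, Algebra.leftMulMatrix_eq_repr_mul,
    Algebra.leftMulMatrix_eq_repr_mul, mixedEmbedding.latticeBasis_apply, ← map_mul]
  conv_lhs => rw [← (integralBasis K).sum_repr (a * integralBasis K j), map_sum]
  simp only [mixedEmbedding_rat_smul, ← mixedEmbedding.latticeBasis_apply, map_sum, map_smul,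
    Basis.repr_self, Finsupp.smul_single, smul_eq_mul, mul_one, Finsupp.coe_finsetSum,
    Finset.sum_apply, Finsupp.single_apply, Finset.sum_ite_eq', Finset.mem_univ, if_true,
    Rat.coe_castHom]

/-! ### The support of the weight -/

/-- On the support of the weight the logarithms at the places are within a bounded distance of
their mean. -/
lemma exists_log_bound : ∃ R : ℝ, ∀ x : mixedSpace K, mixedEmbedding.norm x ≠ 0 → wt x ≠ 0 →
    ∀ w : InfinitePlace K, |Real.log (normAtPlace w x) -
      Real.log (mixedEmbedding.norm x) * (finrank ℚ K : ℝ)⁻¹| ≤ R := by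
  set R₀ : ℝ := ∑ i, ‖logBasis K i‖
  refine ⟨∑ _w : InfinitePlace K, 2 * R₀, fun x hx hw w => ?_⟩
  set l : InfinitePlace K → ℝ := fun v => Real.log (normAtPlace v x) -
    Real.log (mixedEmbedding.norm x) * (finrank ℚ K : ℝ)⁻¹
  have hR : 0 ≤ R₀ := by positivity
  have hlog : ‖logMap x‖ ≤ R₀ := by
    rw [← (logBasis K).sum_equivFun (logMap x)]
    refine (norm_sum_le _ _).trans (Finset.sum_le_sum fun i _ => ?_)
    rw [_root_.norm_smul, Real.norm_eq_abs]
    refine mul_le_of_le_one_left (norm_nonneg _) (le_of_lt (abs_lt_one_of_tent_ne_zero ?_))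
    exact fun h => hw (mul_eq_zero_of_left (Finset.prod_eq_zero (Finset.mem_univ i) h) _)
  have hne : ∀ v, v ≠ w₀ → |(mult v : ℝ) * l v| ≤ R₀ := fun v hv =>
    le_trans (norm_le_pi_norm (logMap x) ⟨v, hv⟩) hlog
  have hsum : ∑ v, (mult v : ℝ) * l v = 0 := by
    simp only [l, mul_sub, Finset.sum_sub_distrib, ← Finset.sum_mul]
    rw [← Nat.cast_sum, sum_mult_eq, ← mul_assoc, mul_comm (finrank ℚ K : ℝ), mul_assoc,
      mul_inv_cancel₀ (Nat.cast_ne_zero.mpr finrank_pos.ne'), mul_one, mixedEmbedding.norm_apply,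
      Real.log_prod fun v _ => pow_ne_zero _ (mixedEmbedding.norm_ne_zero_iff.mp hx v)]
    simp [Real.log_pow]
  have habs : ∀ v, |l v| ≤ |(mult v : ℝ) * l v| := fun v => by
    rw [abs_mul]
    exact le_mul_of_one_le_left (abs_nonneg _)
      (by rw [Nat.abs_cast]; exact Nat.one_le_cast.mpr mult_pos)
  rcases eq_or_ne w w₀ with rfl | hw0
  · refine (habs _).trans ?_
    rw [← Finset.add_sum_erase _ _ (Finset.mem_univ (w₀ : InfinitePlace K))] at hsum
    rw [eq_neg_of_add_eq_zero_left hsum, abs_neg]
    refine (Finset.abs_sum_le_sum_abs _ _).trans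
      ((Finset.sum_le_sum fun v hv => hne v (Finset.mem_erase.mp hv).1).trans ?_)
    refine le_trans ?_ (Finset.sum_le_sum fun v _ => (by linarith : R₀ ≤ 2 * R₀))
    exact Finset.sum_le_sum_of_subset_of_nonneg (Finset.erase_subset _ _) fun _ _ _ => hR
  · exact ((habs w).trans (hne w hw0)).trans (le_trans (by linarith)
      (Finset.single_le_sum (f := fun _ : InfinitePlace K => 2 * R₀) (fun _ _ => by linarith)
        (Finset.mem_univ w)))

/-- The kernel vanishes near a nonzero point of norm `0`. -/
lemma eventually_kern_eq_zero {x₀ : mixedSpace K} (h0 : mixedEmbedding.norm x₀ = 0)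
    (hx : x₀ ≠ 0) (η : ℂ) : ∀ᶠ x in 𝓝 x₀, ∀ s, kern η s x = 0 := by
  obtain ⟨R, hR⟩ := exists_log_bound (K := K)
  obtain ⟨w, hw⟩ := mixedEmbedding.norm_eq_zero_iff.mp h0
  obtain ⟨w', hw'⟩ := exists_normAtPlace_ne_zero_iff.mpr hx
  have hpos : 0 < Real.exp (-(2 * R)) * normAtPlace w' x₀ :=
    mul_pos (Real.exp_pos _) ((normAtPlace_nonneg _ _).lt_of_ne' hw')
  filter_upwards [(isOpen_lt (continuous_normAtPlace w)
    ((continuous_normAtPlace w').const_mul (Real.exp (-(2 * R))))).mem_nhds
      (show normAtPlace w x₀ < _ by rw [hw]; exact hpos)] with x hlt s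
  rw [kern]
  split_ifs with hN
  · rfl
  all_goals
    suffices wt x = 0 by simp [this]
    by_contra hwt
    have h1 := hR x hN hwt w
    have h2 := hR x hN hwt w'
    have hn := mixedEmbedding.norm_ne_zero_iff.mp hN
    have hp : ∀ v, 0 < normAtPlace v x := fun v => (normAtPlace_nonneg v x).lt_of_ne' (hn v)
    have h3 : Real.log (normAtPlace w x) < -(2 * R) + Real.log (normAtPlace w' x) := by
      have := Real.log_lt_log (hp w) hlt
      rwa [Real.log_mul (Real.exp_pos _).ne' (hn w'), Real.log_exp] at this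
    linarith [(abs_le.mp h1).1, (abs_le.mp h2).2]

/-! ### Homogeneity and the Lipschitz property -/

/-- Maps that are Lipschitz near a point compose. -/
lemma lip_comp {α β γ : Type*} [PseudoEMetricSpace α] [PseudoEMetricSpace β]
    [PseudoEMetricSpace γ] {f : α → β} {g : β → γ} {x : α} (hc : ContinuousAt f x)
    (hf : ∃ k, ∃ t ∈ 𝓝 x, LipschitzOnWith k f t)
    (hg : ∃ k, ∃ t ∈ 𝓝 (f x), LipschitzOnWith k g t) :
    ∃ k, ∃ t ∈ 𝓝 x, LipschitzOnWith k (g ∘ f) t := by
  obtain ⟨k, t, ht, hk⟩ := hf
  obtain ⟨k', t', ht', hk'⟩ := hg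
  exact ⟨k' * k, t ∩ f ⁻¹' t', inter_mem ht (hc ht'),
    hk'.comp (hk.mono Set.inter_subset_left) fun _ h => h.2⟩

/-- The norm at a place is continuously differentiable where it is nonzero. -/
lemma contDiffAt_normAtPlace {x : mixedSpace K} (w : InfinitePlace K)
    (h : normAtPlace w x ≠ 0) : ContDiffAt ℝ 1 (normAtPlace w) x := by
  rcases w.isReal_or_isComplex with hw | hw
  · rw [normAtPlace_apply_of_isReal hw, norm_ne_zero_iff] at h
    rw [show (normAtPlace w : mixedSpace K → ℝ) = fun y => ‖y.1 ⟨w, hw⟩‖ from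
      funext (normAtPlace_apply_of_isReal hw)]
    refine (contDiffAt_norm ℝ h).comp x ?_
    fun_prop
  · rw [normAtPlace_apply_of_isComplex hw, norm_ne_zero_iff] at h
    rw [show (normAtPlace w : mixedSpace K → ℝ) = fun y => ‖y.2 ⟨w, hw⟩‖ from
      funext (normAtPlace_apply_of_isComplex hw)]
    refine (contDiffAt_norm ℝ h).comp x ?_
    fun_prop

/-- The norm is continuously differentiable where it is nonzero. -/
lemma contDiffAt_norm_mixed {x : mixedSpace K} (h : mixedEmbedding.norm x ≠ 0) :
    ContDiffAt ℝ 1 (mixedEmbedding.norm : mixedSpace K → ℝ) x := by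
  rw [show (mixedEmbedding.norm : mixedSpace K → ℝ) = fun y => ∏ w, normAtPlace w y ^ mult w from
    funext mixedEmbedding.norm_apply]
  exact contDiffAt_prod fun w _ =>
    (contDiffAt_normAtPlace w (mixedEmbedding.norm_ne_zero_iff.mp h w)).pow _

/-- The weighted kernel is homogeneous Lipschitz. -/
theorem homLip_kern (η : ℂ) : HomLip (finrank ℝ (mixedSpace K)) (kern (K := K) η) where
  map_zero s := by simp [kern]
  hom s x hx r hr := by
    rw [mixedEmbedding.finrank]
    simp only [kern, mixedEmbedding.norm_smul, abs_of_pos hr, algNorm_smul,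
      mul_eq_zero, pow_ne_zero _ hr.ne', false_or]
    split_ifs with hN hn hn' hn''
    · simp
    · have hw : wt (r • x) = wt x := by simp only [wt, logCoord, logMap_real_smul hN hr.ne']
      rw [hw, Real.mul_rpow (by positivity) (mixedEmbedding.norm_nonneg x), ← Real.rpow_natCast,
        ← Real.rpow_mul hr.le, mul_neg]
      push_cast
      ring
    · exact absurd (neg_of_mul_neg_right hn (by positivity)) hn'
    · exact absurd (mul_neg_of_pos_of_neg (by positivity) ‹algNorm x < 0›) hn
    · have hw : wt (r • x) = wt x := by simp only [wt, logCoord, logMap_real_smul hN hr.ne']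
      rw [hw, Real.mul_rpow (by positivity) (mixedEmbedding.norm_nonneg x), ← Real.rpow_natCast,
        ← Real.rpow_mul hr.le, mul_neg]
      push_cast
      ring
  lip := by
    rintro ⟨s₀, x₀⟩ (hx : x₀ ≠ 0)
    suffices ∃ k, ∃ t ∈ 𝓝 (s₀, x₀), LipschitzOnWith k (fun p => kern η p.1 p.2) t by
      obtain ⟨k, t, ht, hk⟩ := this
      exact ⟨k, t, mem_nhdsWithin_of_mem_nhds ht, hk⟩
    rcases eq_or_ne (mixedEmbedding.norm x₀) 0 with h0 | h0
    · refine ⟨0, _, (continuous_snd.tendsto (s₀, x₀)).eventually (eventually_kern_eq_zero h0 hx η),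
        fun p hp q hq => ?_⟩
      simp [hp p.1, hq q.1]
    -- near a point of nonzero norm
    set σ : ℂ := if algNorm x₀ < 0 then η else 1
    let F : ℝ × mixedSpace K → (Fin (Units.rank K) → ℝ) × ℝ := fun p =>
      (logCoord p.2, mixedEmbedding.norm p.2 ^ (-p.1))
    let T : (Fin (Units.rank K) → ℝ) × ℝ → (Fin (Units.rank K) → ℝ) × ℝ := fun q =>
      (fun i => tent (q.1 i), q.2)
    let P : (Fin (Units.rank K) → ℝ) × ℝ → ℂ := fun q =>
      (((∏ i, q.1 i) * ((torsionOrder K : ℕ) : ℝ)⁻¹ * q.2 : ℝ) : ℂ) * σ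
    have hF : ContDiffAt ℝ 1 F (s₀, x₀) := by
      have hN := (contDiffAt_norm_mixed h0).comp (s₀, x₀) (contDiffAt_snd)
      refine ContDiffAt.prodMk ?_ (hN.rpow contDiffAt_fst.neg h0)
      have hlog : ContDiffAt ℝ 1 (fun p : ℝ × mixedSpace K => logMap p.2) (s₀, x₀) := by
        refine contDiffAt_pi.mpr fun w => ?_
        simp only [logMap_apply]
        refine contDiffAt_const.mul (ContDiffAt.sub ?_ ((hN.log h0).mul contDiffAt_const))
        exact ((contDiffAt_normAtPlace _ (mixedEmbedding.norm_ne_zero_iff.mp h0 _)).comp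
          (s₀, x₀) contDiffAt_snd).log (mixedEmbedding.norm_ne_zero_iff.mp h0 _)
      exact (logBasis K).equivFun.toContinuousLinearEquiv.contDiff.contDiffAt.comp (s₀, x₀) hlog
    have hT : LipschitzWith 1 T := by
      refine LipschitzWith.of_dist_le_mul fun q q' => ?_
      rw [NNReal.coe_one, one_mul, Prod.dist_eq, Prod.dist_eq]
      refine max_le_max ((dist_pi_le_iff dist_nonneg).mpr fun i => ?_) le_rfl
      refine le_trans ?_ (dist_le_pi_dist q.1 q'.1 i)
      simp only [Real.dist_eq]
      refine (abs_max_sub_max_le_max _ _ _ _).trans ?_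
      simp only [sub_self, abs_zero, max_le_iff, abs_nonneg, true_and]
      rw [sub_sub_sub_cancel_left, abs_sub_comm (q.1 i)]
      exact abs_abs_sub_abs_le_abs_sub _ _
    have hP : ContDiff ℝ 1 P := by
      refine (Complex.ofRealCLM.contDiff.comp ?_).mul contDiff_const
      exact ((contDiff_prod fun i _ => (contDiff_apply ℝ ℝ i).comp contDiff_fst).mul
        contDiff_const).mul contDiff_snd
    obtain ⟨k, t, ht, hk⟩ := lip_comp (g := P ∘ T) hF.continuousAt hF.exists_lipschitzOnWith
      (lip_comp (hT.continuous.continuousAt) ⟨1, Set.univ, univ_mem, hT.lipschitzOnWith⟩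
        hP.contDiffAt.exists_lipschitzOnWith)
    have hev : ∀ᶠ p in 𝓝 (s₀, x₀), kern η p.1 p.2 = (P ∘ T ∘ F) p := by
      have h1 : ∀ᶠ x in 𝓝 x₀, mixedEmbedding.norm x ≠ 0 :=
        (mixedEmbedding.continuous_norm K).continuousAt.eventually_ne h0
      have h2 : ∀ᶠ x in 𝓝 x₀, (algNorm x < 0 ↔ algNorm x₀ < 0) := by
        rcases lt_or_gt_of_ne (algNorm_ne_zero h0) with h | h
        · filter_upwards [continuous_algNorm.continuousAt.eventually (eventually_lt_nhds h)]
            with x hx' using iff_of_true hx' h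
        · filter_upwards [continuous_algNorm.continuousAt.eventually (eventually_gt_nhds h)]
            with x hx' using iff_of_false hx'.not_gt h.not_gt
      filter_upwards [(continuous_snd.tendsto (s₀, x₀)).eventually (h1.and h2)] with p hp
      rw [kern, if_neg hp.1]
      simp only [P, T, F, Function.comp_apply, wt, σ, hp.2]
    exact ⟨k, t ∩ {p | kern η p.1 p.2 = (P ∘ T ∘ F) p}, inter_mem ht hev, fun p hp q hq => by
      change edist (kern η p.1 p.2) (kern η q.1 q.2) ≤ _
      rw [hp.2, hq.2]; exact hk hp.1 hq.1⟩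

end Fermat.DS.Cheb

end
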